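import Fermat.Agent.EC.XFormulas

/-!
# Points of an affine Weierstrass curve under a homomorphism of fields
-/

set_option autoImplicit false

open WeierstrassCurve WeierstrassCurve.Affine WeierstrassCurve.Affine.Point
open Fermat.Agent.ECRed

namespace Fermat.Agent.Cor.LN

variable {F K : Type*} [Field F] [Field K] [DecidableEq F] [DecidableEq K]

/-- The homomorphism on points induced by a homomorphism of fields. -/
noncomputable def ptMap (W : Affine F) (f : F →+* K) : W.Point →+ (W.map f).toAffine.Point where
  toFun P := match P with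
    | 0 => 0
    | .some _ _ h => .some _ _ <| (W.map_nonsingular f.injective ..).mpr h
  map_zero' := rfl
  map_add' := by
    rintro (_ | ⟨x₁, y₁, h₁⟩) (_ | ⟨x₂, y₂, h₂⟩)
    any_goals rfl
    by_cases hxy : x₁ = x₂ ∧ y₁ = W.negY x₂ y₂
    · rw [add_of_Y_eq hxy.left hxy.right,
        add_of_Y_eq (congr_arg _ hxy.left) <| by rw [hxy.right, map_negY]]
    · simpa only [add_some hxy, ← map_addX, ← map_addY, ← map_slope] using!
        (add_some fun h ↦ hxy ⟨f.injective h.1, f.injective (W.map_negY f .. ▸ h).2⟩).symm

variable {W : Affine F} {f : F →+* K}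

lemma ptMap_some {x y : F} (h : W.Nonsingular x y) : ptMap W f (.some x y h) =
    .some (f x) (f y) ((W.map_nonsingular f.injective ..).mpr h) := rfl

lemma ptMap_injective : Function.Injective (ptMap W f) := by
  rintro (_ | _) (_ | _) h
  any_goals contradiction
  · rfl
  · simpa only [some.injEq] using ⟨f.injective (some.inj h).left, f.injective (some.inj h).right⟩

lemma xc_ptMap (P : W.Point) : xc (ptMap W f P) = f (xc P) := by
  rcases P with _ | ⟨x, y, h⟩
  · exact (_root_.map_zero f).symm
  · rfl

lemma yc_ptMap (P : W.Point) : yc (ptMap W f P) = f (yc P) := by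
  rcases P with _ | ⟨x, y, h⟩
  · exact (_root_.map_zero f).symm
  · rfl

end Fermat.Agent.Cor.LN
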