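import Fermat.Agent.Corollaries.LN.Kernel
import Fermat.Agent.Corollaries.LN.PtMap

/-!
# Torsion points of elliptic curves over `ℚ` are integral

For a Weierstrass equation over `ℤ` (any, minimal or not) a rational point `P = (x, y)` of finite
order has `x, y ∈ ℤ` if `2 P ≠ 0`, and `4 x, 8 y ∈ ℤ` if `2 P = 0`.
-/

set_option autoImplicit false

open WeierstrassCurve WeierstrassCurve.Affine
open Fermat.Agent.ECRed

namespace Fermat.Agent.Cor.LN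

section local_

variable {q : ℕ} [hq : Fact q.Prime] [DecidableEq ℚ_[q]]

omit [DecidableEq ℚ_[q]] in
lemma map_eq_EK (W : WeierstrassCurve ℤ) :
    ((W.map (Int.castRingHom ℚ)).map (Rat.castHom ℚ_[q])) = EK (W.map (Int.castRingHom ℤ_[q])) := by
  refine WeierstrassCurve.ext ?_ ?_ ?_ ?_ ?_ <;>
    simp [WeierstrassCurve.map, EK]

lemma torsion_of_eq {W : WeierstrassCurve ℤ_[q]} {E : Affine ℚ_[q]} (hE : E = EK W) {P : E.Point}
    (hx : 1 < ‖xc P‖) (hfin : IsOfFinAddOrder P) : q = 2 ∧ 2 • P = 0 ∧ ‖xc P‖ ≤ 4 := by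
  subst hE
  have hP : P ∈ Ker1 W := mem_Ker1.mpr (Or.inr hx)
  have h0 : P ≠ 0 := by
    rintro rfl
    have : xc (0 : (EK W).Point) = 0 := rfl
    rw [this, norm_zero] at hx
    linarith
  obtain ⟨h2, h2P⟩ := (torsion_of_mem_Ker1 hP hfin).resolve_left h0
  subst h2
  exact ⟨rfl, h2P, norm_xc_le_four hP h0 (by rwa [← two_nsmul])⟩

end local_

section rat

lemma not_dvd_den {q : ℕ} [hq : Fact q.Prime] {r : ℚ} (h : ‖(r : ℚ_[q])‖ ≤ 1) : ¬ q ∣ r.den := by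
  intro hd
  have h1 : (r : ℚ_[q]) * (r.den : ℚ_[q]) = (r.num : ℚ_[q]) := by
    exact_mod_cast congrArg (fun z : ℚ => (z : ℚ_[q])) (Rat.mul_den_eq_num r)
  have h2 : ‖(r.den : ℚ_[q])‖ < 1 := Padic.norm_natCast_lt_one_iff.mpr hd
  have h3 : ‖(r.num : ℚ_[q])‖ < 1 := by
    rw [← h1, norm_mul]
    calc ‖(r : ℚ_[q])‖ * ‖(r.den : ℚ_[q])‖ ≤ 1 * ‖(r.den : ℚ_[q])‖ := by gcongr
      _ < 1 := by rwa [one_mul]
  have h4 : (q : ℤ) ∣ r.num := Padic.norm_intCast_lt_one_iff.mp h3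
  have h5 : q ∣ r.num.natAbs := Int.natCast_dvd.mp h4
  have h6 := Nat.dvd_gcd h5 hd
  rw [r.reduced] at h6
  exact hq.out.one_lt.ne' (Nat.dvd_one.mp h6)

lemma exists_int_of_norm_le_one {r : ℚ} (h : ∀ (q : ℕ) [Fact q.Prime], ‖(r : ℚ_[q])‖ ≤ 1) :
    ∃ a : ℤ, r = a := by
  have h1 : r.den = 1 := by
    by_contra hne
    obtain ⟨q, hq, hd⟩ := Nat.exists_prime_and_dvd hne
    have : Fact q.Prime := ⟨hq⟩
    exact not_dvd_den (h q) hd
  exact ⟨r.num, (Rat.coe_int_num_of_den_eq_one h1).symm⟩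

variable {W : WeierstrassCurve ℤ}

/-- The curve over `ℚ`. -/
abbrev EQQ (W : WeierstrassCurve ℤ) : Affine ℚ := (W.map (Int.castRingHom ℚ)).toAffine

/-- The `x`-coordinate of a torsion point is integral at `q`, except if `q = 2` and the point is
killed by `2`, and then `4 x` is integral. -/
theorem norm_xc_le (q : ℕ) [hq : Fact q.Prime] {P : (EQQ W).Point} (hfin : IsOfFinAddOrder P) :
    ‖((xc P : ℚ) : ℚ_[q])‖ ≤ 1 ∨ q = 2 ∧ 2 • P = 0 ∧ ‖((xc P : ℚ) : ℚ_[q])‖ ≤ 4 := by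
  classical
  by_cases hx : ‖((xc P : ℚ) : ℚ_[q])‖ ≤ 1
  · exact Or.inl hx
  right
  rw [not_le] at hx
  have hxP : xc (ptMap (EQQ W) (Rat.castHom ℚ_[q]) P) = ((xc P : ℚ) : ℚ_[q]) := xc_ptMap P
  obtain ⟨h2, h2P, h4⟩ := torsion_of_eq (map_eq_EK W)
    (P := ptMap (EQQ W) (Rat.castHom ℚ_[q]) P) (by rw [hxP]; exact hx)
    ((ptMap (EQQ W) (Rat.castHom ℚ_[q])).isOfFinAddOrder hfin)
  refine ⟨h2, ?_, by rwa [hxP] at h4⟩
  apply ptMap_injective (W := EQQ W) (f := Rat.castHom ℚ_[q])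
  rw [map_nsmul, h2P, map_zero]

lemma norm_yc_le {q : ℕ} [hq : Fact q.Prime] {P : (EQQ W).Point}
    (hx : ‖((xc P : ℚ) : ℚ_[q])‖ ≤ 1) : ‖((yc P : ℚ) : ℚ_[q])‖ ≤ 1 := by
  classical
  by_cases h0 : P = 0
  · subst h0
    have : yc (0 : (EQQ W).Point) = 0 := rfl
    rw [this]; simp
  have h1 : ptMap (EQQ W) (Rat.castHom ℚ_[q]) P ≠ 0 := by
    intro h
    exact h0 (ptMap_injective (by rw [h, map_zero]))
  have h2 := equation_of_ne_zero h1
  rw [xc_ptMap, yc_ptMap] at h2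
  have h3 : (EK (W.map (Int.castRingHom ℤ_[q]))).Equation (Rat.castHom ℚ_[q] (xc P))
      (Rat.castHom ℚ_[q] (yc P)) := by
    rw [← map_eq_EK W]; exact h2
  exact (redCurve _).v_y_le_one (isPlace q) h3 hx

/-- **Torsion points are integral**: if `P` has finite order and `2 P ≠ 0`, then `x(P), y(P) ∈ ℤ`
(for any Weierstrass equation over `ℤ`). -/
theorem exists_int_of_torsion {P : (EQQ W).Point} (hfin : IsOfFinAddOrder P) (h2 : 2 • P ≠ 0) :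
    ∃ a b : ℤ, xc P = a ∧ yc P = b := by
  have hx : ∀ (q : ℕ) [Fact q.Prime], ‖((xc P : ℚ) : ℚ_[q])‖ ≤ 1 := by
    intro q _
    rcases norm_xc_le q hfin with h | ⟨-, h, -⟩
    · exact h
    · exact absurd h h2
  obtain ⟨a, ha⟩ := exists_int_of_norm_le_one hx
  obtain ⟨b, hb⟩ := exists_int_of_norm_le_one (r := yc P) fun q _ => norm_yc_le (hx q)
  exact ⟨a, b, ha, hb⟩

/-- For a point of order `2`: `4 x, 8 y ∈ ℤ`. -/
theorem exists_int_of_two_nsmul {P : (EQQ W).Point} (h0 : P ≠ 0) (h2 : 2 • P = 0) :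
    ∃ a b : ℤ, 4 * xc P = a ∧ 8 * yc P = b := by
  have hfin : IsOfFinAddOrder P := isOfFinAddOrder_iff_nsmul_eq_zero.mpr ⟨2, by norm_num, h2⟩
  obtain ⟨a, ha⟩ := exists_int_of_norm_le_one (r := 4 * xc P) (by
    intro q hq
    push_cast
    rw [norm_mul]
    have h4 : ‖(4 : ℚ_[q])‖ ≤ 1 := by
      have := PadicInt.norm_le_one (4 : ℤ_[q])
      exact_mod_cast this
    rcases norm_xc_le q hfin with h | ⟨hq2, -, h⟩
    · exact mul_le_one₀ h4 (norm_nonneg _) h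
    · subst hq2
      rw [norm_four]
      linarith)
  refine ⟨a, -(W.a₁ * a + 4 * W.a₃), ha, ?_⟩
  obtain ⟨hns, he⟩ := exists_eq_some h0
  rw [two_nsmul, he, add_self_eq_zero_iff] at h2
  rw [negY] at h2
  have e1 : (EQQ W).a₁ = (W.a₁ : ℚ) := rfl
  have e3 : (EQQ W).a₃ = (W.a₃ : ℚ) := rfl
  rw [e1, e3] at h2
  push_cast
  linear_combination 4 * h2 - (W.a₁ : ℚ) * ha

/-- In all cases `4 x ∈ ℤ` and `8 y ∈ ℤ`. -/
theorem exists_int_four_mul {P : (EQQ W).Point} (h0 : P ≠ 0) (hfin : IsOfFinAddOrder P) :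
    ∃ a b : ℤ, 4 * xc P = a ∧ 8 * yc P = b := by
  by_cases h2 : 2 • P = 0
  · exact exists_int_of_two_nsmul h0 h2
  · obtain ⟨a, b, ha, hb⟩ := exists_int_of_torsion hfin h2
    exact ⟨4 * a, 8 * b, by rw [ha]; push_cast; ring, by rw [hb]; push_cast; ring⟩

end rat

end Fermat.Agent.Cor.LN
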