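import Fermat.Agent.Corollaries.LN.Main
import Fermat.Prelude.Def_FLTPrelim_Modularity

/-!
# Reduction of rational points and torsion

For a Weierstrass equation `W` over `ℤ` and a prime `q` not dividing its discriminant, the
reduction `redQ : W(ℚ) → W(ℤ/q)` is a homomorphism of groups. On points of finite order it is
injective if `q` is odd, and its kernel has at most two elements if `q = 2`. Hence the torsion
subgroup of `W(ℚ)` is finite, and its order divides `#W(ℤ/q)`, respectively `2 #W(ℤ/2)`.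
-/

set_option autoImplicit false

open WeierstrassCurve WeierstrassCurve.Affine
open Fermat.Agent.ECRed

namespace Fermat.Agent.Cor.LN

/-- The curve over `ℤ / q`. -/
abbrev EF (q : ℕ) (W : WeierstrassCurve ℤ) : Affine (ZMod q) :=
  (W.map (Int.castRingHom (ZMod q))).toAffine

section prime

variable {q : ℕ} [hq : Fact q.Prime] {W : WeierstrassCurve ℤ}

variable (q W) in
/-- The curve over `ℚ_q`, through `ℚ`. -/
noncomputable abbrev EQq : Affine ℚ_[q] := ((EQQ W).map (Rat.castHom ℚ_[q])).toAffine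

variable (W) in
lemma redCurveQ : RedCurve (PadicInt.toZMod (p := q)) (EQq q W) (EF q W) := by
  refine ⟨?_, ?_, ?_, ?_, ?_⟩ <;>
  · simp only [EQq, EQQ, EF, WeierstrassCurve.map, eq_intCast, map_intCast]
    exact redTo_intCast _ _

lemma EF_Δ_ne_zero (h : ¬ (q : ℤ) ∣ W.Δ) : (EF q W).Δ ≠ 0 := by
  rw [WeierstrassCurve.map_Δ, eq_intCast, Ne, ZMod.intCast_zmod_eq_zero_iff_dvd]
  exact h

open Classical in
/-- The point `Q` modulo `q` is the reduction of the rational point `P`. -/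
def IsRedQ (P : (EQQ W).Point) (Q : (EF q W).Point) : Prop :=
  IsRed (vq q) (PadicInt.toZMod (p := q)) (ptMap (EQQ W) (Rat.castHom ℚ_[q]) P) Q

lemma exists_isRedQ (h : ¬ (q : ℤ) ∣ W.Δ) (P : (EQQ W).Point) :
    ∃ Q : (EF q W).Point, IsRedQ P Q := by
  classical
  exact exists_isRed_of_Δ_ne_zero (redCurveQ W) (isPlace q) (EF_Δ_ne_zero h) _

lemma IsRedQ.unique {P : (EQQ W).Point} {Q Q' : (EF q W).Point} (h : IsRedQ P Q)
    (h' : IsRedQ P Q') : Q = Q' := by
  classical
  exact IsRed.unique (isPlace q) h h'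

lemma isRedQ_zero : IsRedQ (0 : (EQQ W).Point) (0 : (EF q W).Point) := by
  classical
  rw [IsRedQ, map_zero]
  exact isRed_zero_zero

lemma IsRedQ.add {P P' : (EQQ W).Point} {Q Q' : (EF q W).Point} (h : IsRedQ P Q)
    (h' : IsRedQ P' Q') : IsRedQ (P + P') (Q + Q') := by
  classical
  rw [IsRedQ, map_add]
  exact IsRed.add (redCurveQ W) (isPlace q) h h'

/-- **Reduction modulo `q`** of the rational points, `q` a prime not dividing the discriminant. -/
noncomputable def redQ (h : ¬ (q : ℤ) ∣ W.Δ) : (EQQ W).Point →+ (EF q W).Point where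
  toFun P := (exists_isRedQ h P).choose
  map_zero' := (exists_isRedQ h 0).choose_spec.unique isRedQ_zero
  map_add' P P' := (exists_isRedQ h (P + P')).choose_spec.unique
    ((exists_isRedQ h P).choose_spec.add (exists_isRedQ h P').choose_spec)

lemma isRedQ_redQ (h : ¬ (q : ℤ) ∣ W.Δ) (P : (EQQ W).Point) : IsRedQ P (redQ h P) :=
  (exists_isRedQ h P).choose_spec

lemma norm_le_one_of_not_dvd {r : ℚ} (h : ¬ q ∣ r.den) : ‖(r : ℚ_[q])‖ ≤ 1 := by
  have h1 : (r : ℚ_[q]) * (r.den : ℚ_[q]) = (r.num : ℚ_[q]) := by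
    exact_mod_cast congrArg (fun z : ℚ => (z : ℚ_[q])) (Rat.mul_den_eq_num r)
  have h2 : ‖(r.den : ℚ_[q])‖ = 1 :=
    Padic.norm_natCast_eq_one_iff.mpr ((Nat.Prime.coprime_iff_not_dvd hq.out).mpr h)
  have h3 := norm_intCast_le_one q r.num
  rw [← h1, norm_mul, h2, mul_one] at h3
  exact h3

lemma norm_le_one_iff {r : ℚ} : ‖(r : ℚ_[q])‖ ≤ 1 ↔ ¬ q ∣ r.den :=
  ⟨not_dvd_den, norm_le_one_of_not_dvd⟩

lemma redTo_rat {r : ℚ} (h : ¬ q ∣ r.den) :
    RedTo (PadicInt.toZMod (p := q)) (r : ℚ_[q]) (r : ZMod q) := by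
  have hd : ((r.den : ℕ) : ZMod q) ≠ 0 := by
    rwa [Ne, ZMod.natCast_eq_zero_iff]
  have h1 := (isPlace q).div (redTo_intCast (K := ℚ_[q]) (PadicInt.toZMod (p := q)) r.num)
    (redTo_natCast (K := ℚ_[q]) (PadicInt.toZMod (p := q)) r.den) hd
  rwa [← Rat.cast_def, ← Rat.cast_def] at h1

/-- The kernel of reduction: the points whose `x`-coordinate is not `q`-integral. -/
theorem redQ_eq_zero_iff {h : ¬ (q : ℤ) ∣ W.Δ} {P : (EQQ W).Point} :
    redQ h P = 0 ↔ P = 0 ∨ q ∣ (xc P).den := by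
  classical
  have h1 : redQ h P = 0 ↔ IsRedQ P (0 : (EF q W).Point) :=
    ⟨fun h0 => h0 ▸ isRedQ_redQ h P, fun h0 => (isRedQ_redQ h P).unique h0⟩
  rw [h1, IsRedQ, isRed_zero_right_iff, xc_ptMap]
  refine or_congr ?_ ?_
  · rw [← map_zero (ptMap (EQQ W) (Rat.castHom ℚ_[q]))]
    exact ptMap_injective.eq_iff
  · have : (1 < vq q ((Rat.castHom ℚ_[q]) (xc P))) ↔ ¬ ‖((xc P : ℚ) : ℚ_[q])‖ ≤ 1 := by
      rw [not_le]
      exact Iff.rfl
    rw [this, norm_le_one_iff, not_not]

/-- The reduction of a point with `q`-integral `x`-coordinate: reduce the coordinates. -/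
theorem redQ_some (h : ¬ (q : ℤ) ∣ W.Δ) {x y : ℚ} (hxy : (EQQ W).Nonsingular x y)
    (hx : ¬ q ∣ x.den) :
    ∃ h' : (EF q W).Nonsingular (x : ZMod q) (y : ZMod q),
      redQ h (.some x y hxy) = .some (x : ZMod q) (y : ZMod q) h' := by
  classical
  have hy : ¬ q ∣ y.den := norm_le_one_iff.mp
    (norm_yc_le (P := .some x y hxy) (norm_le_one_iff.mpr hx))
  have hE := redCurveQ (q := q) W
  have h0 : ptMap (EQQ W) (Rat.castHom ℚ_[q]) (.some x y hxy) ≠ 0 := by
    rw [ptMap_some]; exact Point.some_ne_zero _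
  have heq := equation_of_ne_zero h0
  have h1 : (EF q W).Equation (x : ZMod q) (y : ZMod q) :=
    hE.equation (isPlace q) (redTo_rat hx) (redTo_rat hy) heq
  have h2 := (equation_iff_nonsingular_of_Δ_ne_zero (EF_Δ_ne_zero h)).mp h1
  refine ⟨h2, (isRedQ_redQ h _).unique ?_⟩
  rw [IsRedQ, ptMap_some]
  exact isRed_some_some_iff.mpr ⟨redTo_rat hx, redTo_rat hy⟩

/-- A torsion point in the kernel of reduction is `0`, or `q = 2` and the point is killed
by `2`. -/
theorem torsion_of_redQ_eq_zero {h : ¬ (q : ℤ) ∣ W.Δ} {P : (EQQ W).Point}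
    (hfin : IsOfFinAddOrder P) (h0 : redQ h P = 0) : P = 0 ∨ q = 2 ∧ 2 • P = 0 := by
  rcases redQ_eq_zero_iff.mp h0 with h1 | h1
  · exact Or.inl h1
  · rcases norm_xc_le q hfin with h2 | ⟨h2, h3, -⟩
    · exact absurd h1 (not_dvd_den h2)
    · exact Or.inr ⟨h2, h3⟩

/-- The reduction of the torsion subgroup. -/
noncomputable def redTors (h : ¬ (q : ℤ) ∣ W.Δ) :
    AddCommGroup.torsion (EQQ W).Point →+ (EF q W).Point :=
  (redQ h).comp (AddCommGroup.torsion (EQQ W).Point).subtype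

/-- **The torsion subgroup injects into the reduction** modulo an odd prime `q` not dividing the
discriminant. -/
theorem redTors_injective (hq2 : q ≠ 2) (h : ¬ (q : ℤ) ∣ W.Δ) :
    Function.Injective (redTors h) := by
  rw [injective_iff_map_eq_zero]
  rintro ⟨P, hP⟩ h0
  rcases torsion_of_redQ_eq_zero (h := h) hP h0 with h1 | ⟨h1, -⟩
  · exact Subtype.ext h1
  · exact absurd h1 hq2

/-- The order of the torsion subgroup divides `#W(ℤ/q)`, `q` odd, not dividing the
discriminant. -/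
theorem card_torsion_dvd (hq2 : q ≠ 2) (h : ¬ (q : ℤ) ∣ W.Δ) :
    Nat.card (AddCommGroup.torsion (EQQ W).Point) ∣ Nat.card (EF q W).Point :=
  AddSubgroup.card_dvd_of_injective _ (redTors_injective hq2 h)

/-- The same with the trace `a_q` of Frobenius: `#W(ℚ)_tors ∣ q + 1 - a_q`. -/
theorem card_torsion_dvd_apOfModel (hq2 : q ≠ 2) (h : ¬ (q : ℤ) ∣ W.Δ) :
    (Nat.card (AddCommGroup.torsion (EQQ W).Point) : ℤ) ∣ q + 1 - W.apOfModel q := by
  have h1 : (q : ℤ) + 1 - W.apOfModel q = (Nat.card (EF q W).Point : ℤ) := by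
    rw [WeierstrassCurve.apOfModel, WeierstrassCurve.traceOfFrobenius, WeierstrassCurve.card,
      Nat.card_zmod]
    simp only [WeierstrassCurve.reductionMod]
    ring
  rw [h1]
  exact_mod_cast card_torsion_dvd hq2 h

end prime

section finite

variable {W : WeierstrassCurve ℤ}

lemma exists_good_prime (hΔ : W.Δ ≠ 0) : ∃ q : ℕ, q.Prime ∧ q ≠ 2 ∧ ¬ (q : ℤ) ∣ W.Δ := by
  obtain ⟨q, hle, hq⟩ := Nat.exists_infinite_primes (W.Δ.natAbs + 3)
  refine ⟨q, hq, by omega, fun hd => ?_⟩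
  have h1 := Int.natAbs_dvd_natAbs.mpr hd
  have h2 := Nat.le_of_dvd (Int.natAbs_pos.mpr hΔ) h1
  simp only [Int.natAbs_natCast] at h2
  omega

/-- **The torsion subgroup of `W(ℚ)` is finite.** -/
theorem finite_torsion (hΔ : W.Δ ≠ 0) : Finite (AddCommGroup.torsion (EQQ W).Point) := by
  obtain ⟨q, hq, hq2, h⟩ := exists_good_prime hΔ
  have : Fact q.Prime := ⟨hq⟩
  exact Finite.of_injective _ (redTors_injective hq2 h)

end finite

section two

/-- Two points of order `2` in the kernel of reduction at `2` are equal. -/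
theorem eq_of_mem_Ker1_two [DecidableEq ℚ_[2]] {W : WeierstrassCurve ℤ_[2]} {P P' : (EK W).Point}
    (hP : P ∈ Ker1 W) (hP' : P' ∈ Ker1 W) (h0 : P ≠ 0) (h0' : P' ≠ 0) (h2 : P + P = 0)
    (h2' : P' + P' = 0) : P = P' := by
  by_contra hne
  have hnegP : -P = P := neg_eq_of_add_eq_zero_left h2
  have hnegP' : -P' = P' := neg_eq_of_add_eq_zero_left h2'
  have hR0 : P + P' ≠ 0 := by
    intro h
    apply hne
    rw [← hnegP]
    exact (neg_eq_of_add_eq_zero_right h)
  have hR : P + P' ∈ Ker1 W := add_mem hP hP'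
  have hR2 : (P + P') + (P + P') = 0 := by
    have : (P + P') + (P + P') = (P + P) + (P' + P') := by abel
    rw [this, h2, h2', add_zero]
  have hnegR : -(P + P') = P + P' := neg_eq_of_add_eq_zero_left hR2
  have hxne : ∀ {A B : (EK W).Point}, A ≠ 0 → B ≠ 0 → -B = B → A ≠ B → xc A ≠ xc B := by
    intro A B hA hB hnB hAB h
    rcases (xc_eq_iff hA hB).mp h with h1 | h1
    · exact hAB h1
    · exact hAB (h1.trans hnB)
  have h12 := hxne h0 h0' hnegP' hne
  have h13 : xc P ≠ xc (P + P') := hxne h0 hR0 hnegR fun h => h0' (by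
    have := congrArg (fun z => -P + z) h
    simpa using this.symm)
  have h23 : xc P' ≠ xc (P + P') := hxne h0' hR0 hnegR fun h => h0 (by
    have := congrArg (fun z => z + -P') h
    simpa using this.symm)
  have e1 := psi_eq_zero h0 h2
  have e2 := psi_eq_zero h0' h2'
  have e3 := psi_eq_zero hR0 hR2
  obtain ⟨k₁, hk₁, n1⟩ := exists_pow_of_mem hP h0
  obtain ⟨k₂, hk₂, n2⟩ := exists_pow_of_mem hP' h0'
  obtain ⟨k₃, hk₃, n3⟩ := exists_pow_of_mem hR hR0
  have hb6 : ‖(EK W).b₆‖ ≤ 1 := by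
    have : (EK W).b₆ = algebraMap ℤ_[2] ℚ_[2] W.b₆ := WeierstrassCurve.map_b₆ _ _
    rw [this]
    exact norm_b_le _
  have four_le : ∀ {k : ℕ}, 1 ≤ k → (4 : ℝ) ≤ ((2 : ℕ) : ℝ) ^ (2 * k) := by
    intro k hk
    calc (4 : ℝ) = ((2 : ℕ) : ℝ) ^ 2 := by norm_num
      _ ≤ _ := pow_le_pow_right₀ (by norm_num) (by omega)
  have m1 : 4 ≤ ‖xc P‖ := n1 ▸ four_le hk₁
  have m2 : 4 ≤ ‖xc P'‖ := n2 ▸ four_le hk₂
  have m3 : 4 ≤ ‖xc (P + P')‖ := n3 ▸ four_le hk₃
  set x₁ := xc P
  set x₂ := xc P'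
  set x₃ := xc (P + P')
  -- Vieta
  have g12 : 4 * (x₁ ^ 2 + x₁ * x₂ + x₂ ^ 2) + (EK W).b₂ * (x₁ + x₂) + 2 * (EK W).b₄ = 0 := by
    apply mul_left_cancel₀ (sub_ne_zero.mpr h12)
    linear_combination e1 - e2
  have g13 : 4 * (x₁ ^ 2 + x₁ * x₃ + x₃ ^ 2) + (EK W).b₂ * (x₁ + x₃) + 2 * (EK W).b₄ = 0 := by
    apply mul_left_cancel₀ (sub_ne_zero.mpr h13)
    linear_combination e1 - e3
  have g : 4 * (x₁ + x₂ + x₃) + (EK W).b₂ = 0 := by
    apply mul_left_cancel₀ (sub_ne_zero.mpr h23)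
    linear_combination g12 - g13
  have hb : (EK W).b₆ = -(4 * (x₁ * x₂ * x₃)) := by
    linear_combination e1 - x₁ * g12 + x₁ * x₂ * g
  rw [hb, norm_neg, norm_mul, norm_mul, norm_mul, norm_four] at hb6
  have h16 : 16 ≤ ‖x₁‖ * ‖x₂‖ := by nlinarith
  nlinarith

variable {W : WeierstrassCurve ℤ}

lemma eq_of_eq_EK_two [DecidableEq ℚ_[2]] {E : Affine ℚ_[2]} {W' : WeierstrassCurve ℤ_[2]}
    (hE : E = EK W') {P P' : E.Point} (h1 : 1 < ‖xc P‖) (h1' : 1 < ‖xc P'‖)
    (h0 : P ≠ 0) (h0' : P' ≠ 0) (h2 : P + P = 0) (h2' : P' + P' = 0) : P = P' := by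
  subst hE
  exact eq_of_mem_Ker1_two (mem_Ker1.mpr (Or.inr h1)) (mem_Ker1.mpr (Or.inr h1')) h0 h0' h2 h2'

/-- At most one nonzero torsion point of `W(ℚ)` has an `x`-coordinate with even denominator. -/
theorem eq_of_even_den {P P' : (EQQ W).Point} (hfin : IsOfFinAddOrder P)
    (hfin' : IsOfFinAddOrder P') (h : 2 ∣ (xc P).den) (h' : 2 ∣ (xc P').den) : P = P' := by
  classical
  have hF : Fact (Nat.Prime 2) := ⟨Nat.prime_two⟩
  have key : ∀ {R : (EQQ W).Point}, IsOfFinAddOrder R → 2 ∣ (xc R).den →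
      1 < ‖xc (ptMap (EQQ W) (Rat.castHom ℚ_[2]) R)‖ ∧
      ptMap (EQQ W) (Rat.castHom ℚ_[2]) R ≠ 0 ∧
      ptMap (EQQ W) (Rat.castHom ℚ_[2]) R + ptMap (EQQ W) (Rat.castHom ℚ_[2]) R = 0 := by
    intro R hR hd
    have h1 : ¬ ‖((xc R : ℚ) : ℚ_[2])‖ ≤ 1 := by
      rw [norm_le_one_iff, not_not]; exact hd
    have h2 : 1 < ‖xc (ptMap (EQQ W) (Rat.castHom ℚ_[2]) R)‖ := by
      rw [xc_ptMap]; exact not_le.mp h1
    refine ⟨h2, ?_, ?_⟩
    · intro h0
      rw [h0] at h2
      have : xc (0 : (EQq 2 W).Point) = 0 := rfl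
      rw [this, norm_zero] at h2
      linarith
    · rcases norm_xc_le 2 hR with h3 | ⟨-, h3, -⟩
      · exact absurd h3 h1
      · rw [← map_add, ← two_nsmul, h3, map_zero]
  obtain ⟨a1, a2, a3⟩ := key hfin h
  obtain ⟨b1, b2, b3⟩ := key hfin' h'
  exact ptMap_injective (eq_of_eq_EK_two (map_eq_EK W) a1 b1 a2 b2 a3 b3)

/-- The order of the torsion subgroup divides `2 #W(ℤ/2)` if the discriminant is odd. -/
theorem card_torsion_dvd_two (h : ¬ ((2 : ℕ) : ℤ) ∣ W.Δ) :
    Nat.card (AddCommGroup.torsion (EQQ W).Point) ∣ 2 * Nat.card (EF 2 W).Point := by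
  have hF : Fact (Nat.Prime 2) := ⟨Nat.prime_two⟩
  set f := redTors (q := 2) h with hf
  have hker : Nat.card f.ker ∣ 2 := by
    have hle : Nat.card f.ker ≤ 2 := by
      by_cases hall : ∀ x : f.ker, x = 0
      · have : Subsingleton f.ker := ⟨fun a b => (hall a).trans (hall b).symm⟩
        exact (Finite.card_le_one_iff_subsingleton.mpr ‹_›).trans (by norm_num)
      · push Not at hall
        obtain ⟨x, hx⟩ := hall
        have hden : ∀ z : f.ker, z ≠ 0 → 2 ∣ (xc (z : AddCommGroup.torsion (EQQ W).Point).1).den := by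
          intro z hz
          have h1 : redQ h (z : AddCommGroup.torsion (EQQ W).Point).1 = 0 := z.2
          rcases redQ_eq_zero_iff.mp h1 with h2 | h2
          · exact absurd (Subtype.ext (Subtype.ext h2)) hz
          · exact h2
        have hsurj : Function.Surjective (fun b : Bool => if b then x else 0) := by
          intro z
          by_cases hz : z = 0
          · exact ⟨false, by simp [hz]⟩
          · exact ⟨true, by
              simp only [if_true]
              exact Subtype.ext (Subtype.ext (eq_of_even_den x.1.2 z.1.2 (hden x hx) (hden z hz)))⟩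
        have := Nat.card_le_card_of_surjective _ hsurj
        simpa using this
    have hpos : Nat.card f.ker ≠ 0 := by
      intro h0
      rcases Nat.card_eq_zero.mp h0 with h1 | h1
      · exact h1.false 0
      · have hΔ : W.Δ ≠ 0 := by
          intro h0
          rw [h0] at h
          exact h (dvd_zero _)
        have := finite_torsion hΔ
        exact h1.not_finite (inferInstance : Finite f.ker)
    interval_cases hc : Nat.card f.ker
    · exact absurd rfl hpos
    · exact one_dvd 2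
    · exact dvd_refl 2
  rw [AddSubgroup.card_eq_card_quotient_mul_card_addSubgroup f.ker, mul_comm]
  exact mul_dvd_mul hker (AddSubgroup.card_dvd_of_injective _ (QuotientAddGroup.kerLift_injective f))

end two

end Fermat.Agent.Cor.LN
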