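import Fermat.Agent.Corollaries.LN.TorsA

/-!
# Congruent numbers

`n ∈ ℤ`, `n ≠ 0`, `E_n : y² = x³ - n² x`. The torsion subgroup of `E_n(ℚ)` consists of `O`, `(0, 0)`,
`(n, 0)`, `(-n, 0)`. The number `n` is the area of a right triangle with rational sides iff `E_n`
has a rational point of infinite order iff `E_n(ℚ)` is infinite iff `E_n` has a rational point
`(x, y)` with `y ≠ 0`.
-/

set_option autoImplicit false

open WeierstrassCurve WeierstrassCurve.Affine
open Fermat.Agent.ECRed

namespace Fermat.Agent.Cor.LN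

variable {n : ℤ}

lemma neg_sq_ne_zero (hn : n ≠ 0) : -n ^ 2 ≠ 0 := neg_ne_zero.mpr (pow_ne_zero 2 hn)

/-- **The torsion subgroup of `y² = x³ - n² x`** has four elements. -/
theorem card_torsion_congruent (hn : n ≠ 0) :
    Nat.card (AddCommGroup.torsion (EQQ (shortZ (-n ^ 2) 0)).Point) = 4 :=
  (card_torsion_left_eq_four_iff (neg_sq_ne_zero hn)).mpr (Or.inr ⟨n, by push_cast; ring⟩)

/-- A rational point of `y² = x³ - n² x` has finite order iff `y = 0`. -/
theorem isOfFinAddOrder_congruent_iff (hn : n ≠ 0) {P : (EQQ (shortZ (-n ^ 2) 0)).Point}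
    (h0 : P ≠ 0) : IsOfFinAddOrder P ↔ yc P = 0 := by
  rw [isOfFinAddOrder_left_iff (neg_sq_ne_zero hn) h0]
  constructor
  · rintro (h | h)
    · exact h
    · exfalso
      push_cast at h
      have hn' : (n : ℚ) ≠ 0 := by exact_mod_cast hn
      have : 0 < (n : ℚ) ^ 2 := by positivity
      nlinarith [sq_nonneg (xc P)]
  · exact Or.inl

/-- **Congruent numbers and elliptic curves**: `n` is the area of a right triangle with rational
sides iff `y² = x³ - n² x` has a rational point of infinite order. -/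
theorem congruent_iff_exists (hn : n ≠ 0) :
    (∃ a b c : ℚ, a ^ 2 + b ^ 2 = c ^ 2 ∧ a * b = 2 * n) ↔
      ∃ P : (EQQ (shortZ (-n ^ 2) 0)).Point, ¬ IsOfFinAddOrder P := by
  have hn' : (n : ℚ) ≠ 0 := by exact_mod_cast hn
  constructor
  · rintro ⟨a, b, c, h1, h2⟩
    have hb : b ≠ 0 := by
      rintro rfl
      rw [mul_zero] at h2
      exact hn' (by linarith)
    have hac : a + c ≠ 0 := by
      intro h
      have : c = -a := by linarith
      rw [this] at h1
      have h3 : b ^ 2 = 0 := by linarith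
      exact hb (pow_eq_zero_iff two_ne_zero |>.mp h3)
    obtain ⟨P, h0, hx, hy⟩ := exists_pt (A := -n ^ 2) (B := 0)
      (Δ_left_ne_zero (neg_sq_ne_zero hn)) (x := n * (a + c) / b) (y := 2 * n ^ 2 * (a + c) / b ^ 2)
      (by
        push_cast
        have hn2 : (n : ℚ) = a * b / 2 := by linarith
        rw [hn2]
        field_simp
        linear_combination (a ^ 3 * (a + c)) * h1)
    refine ⟨P, fun hfin => ?_⟩
    have := (isOfFinAddOrder_congruent_iff hn h0).mp hfin
    rw [hy, div_eq_zero_iff] at this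
    rcases this with h | h
    · exact (mul_ne_zero (mul_ne_zero two_ne_zero (pow_ne_zero 2 hn')) hac) h
    · exact pow_ne_zero 2 hb h
  · rintro ⟨P, hP⟩
    have h0 : P ≠ 0 := by
      rintro rfl
      exact hP (isOfFinAddOrder_iff_nsmul_eq_zero.mpr ⟨1, one_pos, by rw [one_nsmul]⟩)
    have hy : yc P ≠ 0 := fun h => hP ((isOfFinAddOrder_congruent_iff hn h0).mpr h)
    have heq := eq_left h0
    push_cast at heq
    refine ⟨(xc P ^ 2 - n ^ 2) / yc P, 2 * n * xc P / yc P, (xc P ^ 2 + n ^ 2) / yc P, ?_, ?_⟩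
    · field_simp
      ring
    · field_simp
      linear_combination -heq

/-- `n` is a congruent number iff `y² = x³ - n² x` has infinitely many rational points. -/
theorem congruent_iff_infinite (hn : n ≠ 0) :
    (∃ a b c : ℚ, a ^ 2 + b ^ 2 = c ^ 2 ∧ a * b = 2 * n) ↔
      Infinite (EQQ (shortZ (-n ^ 2) 0)).Point := by
  rw [congruent_iff_exists hn]
  constructor
  · rintro ⟨P, hP⟩
    by_contra hfin
    rw [not_infinite_iff_finite] at hfin
    exact hP (isOfFinAddOrder_of_finite P)
  · intro hinf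
    by_contra hcon
    push Not at hcon
    have := finite_torsion (Δ_left_ne_zero (neg_sq_ne_zero hn))
    have : Finite (EQQ (shortZ (-n ^ 2) 0)).Point :=
      Finite.of_injective (fun P => (⟨P, hcon P⟩ : AddCommGroup.torsion _)) fun P Q h =>
        congrArg Subtype.val h
    exact not_finite (EQQ (shortZ (-n ^ 2) 0)).Point

/-- `n` is not a congruent number iff `y² = x³ - n² x` has exactly four rational points. -/
theorem not_congruent_iff_card (hn : n ≠ 0) :
    (¬ ∃ a b c : ℚ, a ^ 2 + b ^ 2 = c ^ 2 ∧ a * b = 2 * n) ↔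
      Nat.card (EQQ (shortZ (-n ^ 2) 0)).Point = 4 := by
  rw [congruent_iff_exists hn]
  constructor
  · intro h
    push Not at h
    rw [← card_torsion_congruent hn]
    exact (Nat.card_congr (Equiv.subtypeUnivEquiv h)).symm
  · rintro h ⟨P, hP⟩
    have : Finite (EQQ (shortZ (-n ^ 2) 0)).Point := Nat.finite_of_card_ne_zero (by rw [h]; norm_num)
    exact hP (isOfFinAddOrder_of_finite P)

/-- For a natural number the sides can be taken positive. -/
theorem exists_pos_iff {n : ℕ} (hn : n ≠ 0) :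
    (∃ a b c : ℚ, 0 < a ∧ 0 < b ∧ 0 < c ∧ a ^ 2 + b ^ 2 = c ^ 2 ∧ a * b = 2 * n) ↔
      ∃ a b c : ℚ, a ^ 2 + b ^ 2 = c ^ 2 ∧ a * b = 2 * (n : ℤ) := by
  constructor
  · rintro ⟨a, b, c, -, -, -, h1, h2⟩
    exact ⟨a, b, c, h1, by rw [h2]; push_cast; ring⟩
  · rintro ⟨a, b, c, h1, h2⟩
    have hn' : (0 : ℚ) < n := by exact_mod_cast Nat.pos_of_ne_zero hn
    have hab : |a| * |b| = 2 * n := by
      rw [← abs_mul, h2, Int.cast_natCast, abs_of_pos (by positivity)]
    have ha : a ≠ 0 := by
      rintro rfl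
      rw [abs_zero, zero_mul] at hab
      linarith
    have hb : b ≠ 0 := by
      rintro rfl
      rw [abs_zero, mul_zero] at hab
      linarith
    have hc : c ≠ 0 := by
      rintro rfl
      have : 0 < a ^ 2 := by positivity
      nlinarith [sq_nonneg b]
    exact ⟨|a|, |b|, |c|, abs_pos.mpr ha, abs_pos.mpr hb, abs_pos.mpr hc,
      by rw [sq_abs, sq_abs, sq_abs]; exact h1, hab⟩

/-- **Congruent numbers**: `n` is the area of a right triangle with positive rational sides iff the
curve `y² = x³ - n² x` has infinitely many rational points. -/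
theorem isCongruent_iff {n : ℕ} (hn : n ≠ 0) :
    (∃ a b c : ℚ, 0 < a ∧ 0 < b ∧ 0 < c ∧ a ^ 2 + b ^ 2 = c ^ 2 ∧ a * b = 2 * n) ↔
      Infinite (EQQ (shortZ (-(n : ℤ) ^ 2) 0)).Point := by
  rw [exists_pos_iff hn, congruent_iff_infinite (by exact_mod_cast hn)]

/-- The curve `y² = x³ - 25 x` has infinitely many rational points. -/
theorem infinite_five : Infinite (EQQ (shortZ (-5 ^ 2) 0)).Point :=
  (congruent_iff_infinite (n := 5) (by norm_num)).mp
    ⟨3 / 2, 20 / 3, 41 / 6, by norm_num, by norm_num⟩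

/-- The curve `y² = x³ - 36 x` has infinitely many rational points. -/
theorem infinite_six : Infinite (EQQ (shortZ (-6 ^ 2) 0)).Point :=
  (congruent_iff_infinite (n := 6) (by norm_num)).mp ⟨3, 4, 5, by norm_num, by norm_num⟩

/-- The curve `y² = x³ - 49 x` has infinitely many rational points. -/
theorem infinite_seven : Infinite (EQQ (shortZ (-7 ^ 2) 0)).Point :=
  (congruent_iff_infinite (n := 7) (by norm_num)).mp
    ⟨35 / 12, 24 / 5, 337 / 60, by norm_num, by norm_num⟩

end Fermat.Agent.Cor.LN
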