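import Fermat.Agent.Corollaries.LN.Red
import Fermat.Agent.Corollaries.Twist.Ap

/-!
# Points modulo `q` of the curves `y² = x³ + A x` and `y² = x³ + B`, and their torsion

`#E(ℤ/q) = q + 1` for `y² = x³ + A x`, `q ≡ 3 mod 4`, and for `y² = x³ + B`, `q ≡ 2 mod 3`.
Hence the order of the torsion subgroup of `E(ℚ)` divides `4`, respectively `6`.
-/

set_option autoImplicit false

open WeierstrassCurve WeierstrassCurve.Affine

namespace Fermat.Agent.Cor.LN

section count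

variable {q : ℕ} [hq : Fact q.Prime]

/-- **`a_q = 0`** for `y² = x³ + A x`, `q ≡ 3 mod 4`. -/
theorem apOfModel_shortZ_left {A : ℤ} (h4 : q % 4 = 3) (h : ¬ (q : ℤ) ∣ (shortZ A 0).Δ) :
    (shortZ A 0).apOfModel q = 0 := by
  have hF : ringChar (ZMod q) ≠ 2 := by
    rw [ZMod.ringChar_zmod_n]
    rintro rfl
    norm_num at h4
  have hΔ : ((shortZ A 0).reductionMod q).Δ ≠ 0 := EF_Δ_ne_zero h
  rw [WeierstrassCurve.apOfModel, Twist.trace_eq _ hF hΔ]
  have e1 : ((shortZ A 0).reductionMod q).a₁ = 0 := by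
    simp [WeierstrassCurve.reductionMod, WeierstrassCurve.map, shortZ]
  have e2 : ((shortZ A 0).reductionMod q).a₂ = 0 := by
    simp [WeierstrassCurve.reductionMod, WeierstrassCurve.map, shortZ]
  have e3 : ((shortZ A 0).reductionMod q).a₃ = 0 := by
    simp [WeierstrassCurve.reductionMod, WeierstrassCurve.map, shortZ]
  have e6 : ((shortZ A 0).reductionMod q).a₆ = 0 := by
    simp [WeierstrassCurve.reductionMod, WeierstrassCurve.map, shortZ]
  rw [WeierstrassCurve.b₂, WeierstrassCurve.b₆, e1, e2, e3, e6]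
  set c := ((shortZ A 0).reductionMod q).b₄
  set f : ZMod q → ZMod q := fun x =>
    4 * x ^ 3 + (0 ^ 2 + 4 * 0) * x ^ 2 + 2 * c * x + (0 ^ 2 + 4 * 0) with hf
  have hodd : ∀ x, f (-x) = (-1) * f x := fun x => by simp only [hf]; ring
  have hneg : quadraticChar (ZMod q) (-1) = -1 := by
    rw [quadraticChar_neg_one hF, ZMod.card]
    exact ZMod.χ₄_nat_three_mod_four h4
  have h1 : ∑ x : ZMod q, quadraticChar (ZMod q) (f x) =
      ∑ x : ZMod q, quadraticChar (ZMod q) (f (-x)) :=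
    (Equiv.sum_comp (Equiv.neg (ZMod q)) fun x => quadraticChar (ZMod q) (f x)).symm
  have h2 : ∑ x : ZMod q, quadraticChar (ZMod q) (f (-x)) =
      -∑ x : ZMod q, quadraticChar (ZMod q) (f x) := by
    rw [← Finset.sum_neg_distrib]
    refine Finset.sum_congr rfl fun x _ => ?_
    rw [hodd, map_mul, hneg, neg_one_mul]
  rw [h2] at h1
  change -∑ x : ZMod q, quadraticChar (ZMod q) (f x) = 0
  omega

lemma cube_injective (h3 : q % 3 = 2) : Function.Injective fun x : ZMod q => x ^ 3 := by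
  obtain ⟨k, hk⟩ : ∃ k, q = 3 * k + 2 := ⟨q / 3, by omega⟩
  have key : ∀ x : ZMod q, (x ^ 3) ^ (2 * k + 1) = x := by
    intro x
    have h1 : x ^ (3 * k + 2) = x := by
      rw [← hk]
      exact ZMod.pow_card x
    calc (x ^ 3) ^ (2 * k + 1) = x ^ (3 * k + 2) * x ^ (3 * k + 1) := by ring
      _ = x * x ^ (3 * k + 1) := by rw [h1]
      _ = x ^ (3 * k + 2) := by ring
      _ = x := h1
  intro x y h
  rw [← key x, ← key y]
  exact congrArg (fun z => z ^ (2 * k + 1)) h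

/-- **`a_q = 0`** for `y² = x³ + B`, `q ≡ 2 mod 3`, `q` odd. -/
theorem apOfModel_shortZ_right {B : ℤ} (h3 : q % 3 = 2) (hq2 : q ≠ 2)
    (h : ¬ (q : ℤ) ∣ (shortZ 0 B).Δ) : (shortZ 0 B).apOfModel q = 0 := by
  have hF : ringChar (ZMod q) ≠ 2 := by
    rwa [ZMod.ringChar_zmod_n]
  have h2 : (2 : ZMod q) ≠ 0 := Ring.two_ne_zero hF
  have h4 : (4 : ZMod q) ≠ 0 := by
    have : (4 : ZMod q) = 2 * 2 := by norm_num
    rw [this]
    exact mul_ne_zero h2 h2
  have hΔ : ((shortZ 0 B).reductionMod q).Δ ≠ 0 := EF_Δ_ne_zero h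
  rw [WeierstrassCurve.apOfModel, Twist.trace_eq _ hF hΔ]
  have e1 : ((shortZ 0 B).reductionMod q).a₁ = 0 := by
    simp [WeierstrassCurve.reductionMod, WeierstrassCurve.map, shortZ]
  have e2 : ((shortZ 0 B).reductionMod q).a₂ = 0 := by
    simp [WeierstrassCurve.reductionMod, WeierstrassCurve.map, shortZ]
  have e3 : ((shortZ 0 B).reductionMod q).a₃ = 0 := by
    simp [WeierstrassCurve.reductionMod, WeierstrassCurve.map, shortZ]
  have e4 : ((shortZ 0 B).reductionMod q).a₄ = 0 := by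
    simp [WeierstrassCurve.reductionMod, WeierstrassCurve.map, shortZ]
  rw [WeierstrassCurve.b₂, WeierstrassCurve.b₄, e1, e2, e3, e4]
  set c := ((shortZ 0 B).reductionMod q).b₆
  have hbij : Function.Bijective fun x : ZMod q => 4 * x ^ 3 + c := by
    rw [← Finite.injective_iff_bijective]
    intro x y hxy
    apply cube_injective h3
    have h5 : (4 : ZMod q) * x ^ 3 = 4 * y ^ 3 := add_right_cancel hxy
    exact mul_left_cancel₀ h4 h5
  have h5 : ∑ x : ZMod q, quadraticChar (ZMod q) (4 * x ^ 3 + (0 ^ 2 + 4 * 0) * x ^ 2 +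
      2 * (2 * 0 + 0 * 0) * x + c) = ∑ u : ZMod q, quadraticChar (ZMod q) u := by
    refine Fintype.sum_bijective _ hbij _ _ fun x => ?_
    congr 1
    ring
  rw [h5, quadraticChar_sum_zero hF, neg_zero]

end count

section dvd

lemma Δ_left (A : ℤ) : (shortZ A 0).Δ = -64 * A ^ 3 := by
  simp only [WeierstrassCurve.Δ, WeierstrassCurve.b₂, WeierstrassCurve.b₄, WeierstrassCurve.b₆,
    WeierstrassCurve.b₈, shortZ]
  ring

lemma Δ_right (B : ℤ) : (shortZ 0 B).Δ = -432 * B ^ 2 := by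
  simp only [WeierstrassCurve.Δ, WeierstrassCurve.b₂, WeierstrassCurve.b₄, WeierstrassCurve.b₆,
    WeierstrassCurve.b₈, shortZ]
  ring

lemma not_dvd_of_lt {D : ℤ} (hD : D ≠ 0) {q : ℕ} (h : D.natAbs < q) : ¬ (q : ℤ) ∣ D := by
  intro hd
  have h1 := Int.natAbs_dvd_natAbs.mpr hd
  have h2 := Nat.le_of_dvd (Int.natAbs_pos.mpr hD) h1
  simp only [Int.natAbs_natCast] at h2
  omega

/-- A number which divides `q + 1` for all large primes `q ≡ 3 mod 4` divides `4`. -/
lemma dvd_four {N M : ℕ} (hN : N ≠ 0)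
    (h : ∀ q : ℕ, q.Prime → M < q → q % 4 = 3 → N ∣ q + 1) : N ∣ 4 := by
  have h3 : ¬ 3 ∣ N := by
    intro h3
    have hu : IsUnit (7 : ZMod 12) := by decide
    obtain ⟨q, hqM, hq, hq12⟩ := Nat.forall_exists_prime_gt_and_eq_mod hu M
    have h7 : q % 12 = 7 := by
      have : ((q : ℕ) : ZMod 12) = ((7 : ℕ) : ZMod 12) := by rw [hq12]; rfl
      have := (ZMod.natCast_eq_natCast_iff' q 7 12).mp this
      simpa using this
    have := h3.trans (h q hq hqM (by omega))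
    omega
  have : NeZero (4 * N) := ⟨Nat.mul_ne_zero (by norm_num) hN⟩
  have hu : IsUnit ((3 : ℕ) : ZMod (4 * N)) := by
    rw [ZMod.isUnit_iff_coprime]
    refine Nat.Coprime.mul_right (by norm_num) ?_
    exact (Nat.Prime.coprime_iff_not_dvd Nat.prime_three).mpr h3
  obtain ⟨q, hqM, hq, hqN⟩ := Nat.forall_exists_prime_gt_and_eq_mod hu (M + 4)
  have h5 : q ≡ 3 [MOD 4 * N] := (ZMod.natCast_eq_natCast_iff q 3 (4 * N)).mp hqN
  have h6 : q ≡ 3 [MOD 4] := h5.of_mul_right N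
  have h7 : q ≡ 3 [MOD N] := h5.of_mul_left 4
  have h8 : N ∣ q + 1 := h q hq (by omega) h6
  have h9 : q + 1 ≡ 4 [MOD N] := h7.add_right 1
  exact (Nat.modEq_zero_iff_dvd.mp (h9.symm.trans (Nat.modEq_zero_iff_dvd.mpr h8)))

/-- A number which divides `q + 1` for all large primes `q ≡ 2 mod 3` divides `6`. -/
lemma dvd_six {N M : ℕ} (hN : N ≠ 0)
    (h : ∀ q : ℕ, q.Prime → M < q → q % 3 = 2 → N ∣ q + 1) : N ∣ 6 := by
  have h5 : ¬ 5 ∣ N := by
    intro h5
    have hu : IsUnit (11 : ZMod 15) := by decide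
    obtain ⟨q, hqM, hq, hq15⟩ := Nat.forall_exists_prime_gt_and_eq_mod hu M
    have h7 : q % 15 = 11 := by
      have : ((q : ℕ) : ZMod 15) = ((11 : ℕ) : ZMod 15) := by rw [hq15]; rfl
      have := (ZMod.natCast_eq_natCast_iff' q 11 15).mp this
      simpa using this
    have := h5.trans (h q hq hqM (by omega))
    omega
  have : NeZero (3 * N) := ⟨Nat.mul_ne_zero (by norm_num) hN⟩
  have hu : IsUnit ((5 : ℕ) : ZMod (3 * N)) := by
    rw [ZMod.isUnit_iff_coprime]
    refine Nat.Coprime.mul_right (by norm_num) ?_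
    exact (Nat.Prime.coprime_iff_not_dvd Nat.prime_five).mpr h5
  obtain ⟨q, hqM, hq, hqN⟩ := Nat.forall_exists_prime_gt_and_eq_mod hu (M + 4)
  have h5 : q ≡ 5 [MOD 3 * N] := (ZMod.natCast_eq_natCast_iff q 5 (3 * N)).mp hqN
  have h6 : q ≡ 5 [MOD 3] := h5.of_mul_right N
  have h7 : q ≡ 5 [MOD N] := h5.of_mul_left 3
  have h8 : N ∣ q + 1 := h q hq (by omega) h6
  have h9 : q + 1 ≡ 6 [MOD N] := h7.add_right 1
  exact (Nat.modEq_zero_iff_dvd.mp (h9.symm.trans (Nat.modEq_zero_iff_dvd.mpr h8)))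

lemma card_torsion_ne_zero {W : WeierstrassCurve ℤ} (hΔ : W.Δ ≠ 0) :
    Nat.card (AddCommGroup.torsion (EQQ W).Point) ≠ 0 := by
  have := finite_torsion hΔ
  exact Nat.card_pos.ne'

/-- **The torsion of `y² = x³ + A x`** has order dividing `4`. -/
theorem card_torsion_dvd_four {A : ℤ} (hA : A ≠ 0) :
    Nat.card (AddCommGroup.torsion (EQQ (shortZ A 0)).Point) ∣ 4 := by
  have hΔ : (shortZ A 0).Δ ≠ 0 := by
    rw [Δ_left]
    exact mul_ne_zero (by norm_num) (pow_ne_zero 3 hA)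
  refine dvd_four (M := (shortZ A 0).Δ.natAbs) (card_torsion_ne_zero hΔ) fun q hq hM h4 => ?_
  have hF : Fact q.Prime := ⟨hq⟩
  have hnd := not_dvd_of_lt hΔ hM
  have h1 := card_torsion_dvd_apOfModel (W := shortZ A 0) (q := q) (by omega) hnd
  rw [apOfModel_shortZ_left h4 hnd, sub_zero] at h1
  exact_mod_cast h1

/-- **The torsion of `y² = x³ + B`** has order dividing `6`. -/
theorem card_torsion_dvd_six {B : ℤ} (hB : B ≠ 0) :
    Nat.card (AddCommGroup.torsion (EQQ (shortZ 0 B)).Point) ∣ 6 := by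
  have hΔ : (shortZ 0 B).Δ ≠ 0 := by
    rw [Δ_right]
    exact mul_ne_zero (by norm_num) (pow_ne_zero 2 hB)
  refine dvd_six (M := (shortZ 0 B).Δ.natAbs + 2) (card_torsion_ne_zero hΔ) fun q hq hM h3 => ?_
  have hF : Fact q.Prime := ⟨hq⟩
  have hnd := not_dvd_of_lt (q := q) hΔ (by omega)
  have h1 := card_torsion_dvd_apOfModel (W := shortZ 0 B) (q := q) (by omega) hnd
  rw [apOfModel_shortZ_right h3 (by omega) hnd, sub_zero] at h1
  exact_mod_cast h1

end dvd

end Fermat.Agent.Cor.LN
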