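import Fermat.Agent.EC.RedGalois
import Fermat.Agent.Torsion.Mult
import Mathlib.NumberTheory.Padics.RingHoms
import Mathlib.Topology.Algebra.Valued.NormedValued

/-!
# The kernel of reduction over `ℚ_q` and torsion

For a Weierstrass equation over `ℤ_q` a point of finite order in the kernel of reduction
`E₁(ℚ_q)` is trivial if `q` is odd, and killed by `2` if `q = 2`.
-/

set_option autoImplicit false

open WeierstrassCurve WeierstrassCurve.Affine Polynomial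
open Fermat.Agent.ECRed

namespace Fermat.Agent.Cor.LN

variable {q : ℕ} [hq : Fact q.Prime]

section place

variable (q)

/-- The `q`-adic valuation on `ℚ_q`, with values in `ℝ≥0`. -/
noncomputable abbrev vq : Valuation ℚ_[q] NNReal := NormedField.valuation

/-- The place of `ℚ_q` with values in `ℤ / q`. -/
lemma isPlace : IsPlace (vq q) (PadicInt.toZMod (p := q)) where
  integers :=
    { hom_inj := Subtype.coe_injective
      map_le_one := fun r => by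
        change ‖(r : ℚ_[q])‖₊ ≤ 1
        exact_mod_cast PadicInt.norm_le_one r
      exists_of_le_one := fun {r} hr => by
        have h : ‖r‖ ≤ 1 := by
          have : ‖r‖₊ ≤ 1 := hr
          exact_mod_cast this
        exact ⟨⟨r, h⟩, rfl⟩ }
  isLocalHom := ⟨fun r hr => by
    by_contra h
    have h1 : r ∈ IsLocalRing.maximalIdeal ℤ_[q] := h
    rw [← PadicInt.ker_toZMod, RingHom.mem_ker] at h1
    rw [h1] at hr
    exact not_isUnit_zero hr⟩

end place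

lemma vq_eq {x : ℚ_[q]} : (vq q x : ℝ) = ‖x‖ := rfl

lemma q_one_lt : (1 : ℝ) < q := by exact_mod_cast hq.out.one_lt

/-- The values of the norm at nonintegral points. -/
lemma exists_pow_of_sq_eq_cube {x y : ℚ_[q]} (hx : 1 < ‖x‖) (h : ‖y‖ ^ 2 = ‖x‖ ^ 3) :
    ∃ k : ℕ, 1 ≤ k ∧ ‖x‖ = (q : ℝ) ^ (2 * k) := by
  have hx0 : x ≠ 0 := by
    rintro rfl; rw [norm_zero] at hx; linarith
  have hy0 : y ≠ 0 := by
    rintro rfl
    rw [norm_zero] at h
    have : (0 : ℝ) < ‖x‖ ^ 3 := by positivity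
    rw [← h] at this
    norm_num at this
  have e1 := Padic.norm_eq_zpow_neg_valuation hx0
  have e2 := Padic.norm_eq_zpow_neg_valuation hy0
  set a := x.valuation
  set b := y.valuation
  have h1 : (q : ℝ) ^ (-b * 2) = (q : ℝ) ^ (-a * 3) := by
    rw [zpow_mul, zpow_mul]
    rw [e1, e2] at h
    exact_mod_cast h
  have h2 : -b * 2 = -a * 3 := zpow_right_injective₀ (by linarith [q_one_lt (q := q)])
    (ne_of_gt q_one_lt) h1
  have ha : a < 0 := by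
    by_contra hcon
    rw [not_lt] at hcon
    rw [e1] at hx
    have : (q : ℝ) ^ (-a) ≤ 1 := zpow_le_one_of_nonpos₀ (by linarith [q_one_lt (q := q)]) (by omega)
    linarith
  obtain ⟨k, hk⟩ : ∃ k : ℕ, -a = 2 * k := by
    refine ⟨((-a) / 2).toNat, ?_⟩
    have : 0 ≤ (-a) / 2 := by omega
    rw [Int.toNat_of_nonneg this]
    omega
  refine ⟨k, by omega, ?_⟩
  rw [e1, hk]
  exact_mod_cast rfl

/-- An integral polynomial has no root `x` with `‖lc‖ ‖x‖ > 1`. -/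
lemma aeval_ne_zero {f : ℤ_[q][X]} {x : ℚ_[q]}
    (h : 1 < ‖(f.leadingCoeff : ℚ_[q])‖ * ‖x‖) : aeval x f ≠ 0 := by
  intro h0
  have hc1 : ∀ c : ℤ_[q], ‖(c : ℚ_[q])‖ ≤ 1 := fun c => PadicInt.norm_le_one c
  have hx1 : 1 < ‖x‖ := by
    by_contra hcon
    rw [not_lt] at hcon
    have := mul_le_mul (hc1 f.leadingCoeff) hcon (norm_nonneg x) zero_le_one
    linarith
  rw [aeval_eq_sum_range, Finset.sum_range_succ] at h0
  set d := f.natDegree with hd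
  have h1 : f.coeff d • x ^ d = -∑ i ∈ Finset.range d, f.coeff i • x ^ i := by
    linear_combination h0
  have h2 : ‖f.coeff d • x ^ d‖ = ‖(f.leadingCoeff : ℚ_[q])‖ * ‖x‖ ^ d := by
    rw [Algebra.smul_def, norm_mul, norm_pow]
    rfl
  rcases Nat.eq_zero_or_pos d with hd0 | hd0
  · rw [h1, hd0, Finset.range_zero, Finset.sum_empty, neg_zero, norm_zero, pow_zero, mul_one] at h2
    rw [← h2, zero_mul] at h
    linarith
  have h3 : ‖∑ i ∈ Finset.range d, f.coeff i • x ^ i‖ ≤ ‖x‖ ^ (d - 1) := by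
    refine IsUltrametricDist.norm_sum_le_of_forall_le_of_nonneg (by positivity) fun i hi => ?_
    rw [Algebra.smul_def, norm_mul, norm_pow]
    have hi' := Finset.mem_range.mp hi
    calc ‖algebraMap ℤ_[q] ℚ_[q] (f.coeff i)‖ * ‖x‖ ^ i ≤ 1 * ‖x‖ ^ i :=
          mul_le_mul_of_nonneg_right (hc1 _) (by positivity)
      _ = ‖x‖ ^ i := one_mul _
      _ ≤ ‖x‖ ^ (d - 1) := pow_le_pow_right₀ hx1.le (by omega)
  have h4 : ‖(f.leadingCoeff : ℚ_[q])‖ * ‖x‖ ^ d ≤ ‖x‖ ^ (d - 1) := by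
    rw [← h2, h1, norm_neg]; exact h3
  have h5 : ‖x‖ ^ d = ‖x‖ * ‖x‖ ^ (d - 1) := by
    rw [← pow_succ']; congr 1; omega
  rw [h5, ← mul_assoc] at h4
  have h6 : 0 < ‖x‖ ^ (d - 1) := by positivity
  nlinarith

variable {W : WeierstrassCurve ℤ_[q]} [DecidableEq ℚ_[q]]

/-- The curve over `ℚ_q`. -/
noncomputable abbrev EK (W : WeierstrassCurve ℤ_[q]) : Affine ℚ_[q] :=
  (W.map (algebraMap ℤ_[q] ℚ_[q])).toAffine

/-- The reduced curve over `ℤ / q`. -/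
noncomputable abbrev Ek (W : WeierstrassCurve ℤ_[q]) : Affine (ZMod q) :=
  (W.map (PadicInt.toZMod (p := q))).toAffine

omit [DecidableEq ℚ_[q]] in
lemma redCurve (W : WeierstrassCurve ℤ_[q]) : RedCurve (PadicInt.toZMod (p := q)) (EK W) (Ek W) :=
  redCurve_map _ W

/-- The kernel of reduction. -/
noncomputable abbrev Ker1 (W : WeierstrassCurve ℤ_[q]) : AddSubgroup (EK W).Point :=
  E1 (redCurve W) (isPlace q)

lemma mem_Ker1 {P : (EK W).Point} : P ∈ Ker1 W ↔ P = 0 ∨ 1 < ‖xc P‖ := by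
  rw [Ker1, mem_E1_iff]
  exact Iff.rfl

lemma exists_pow_of_mem {P : (EK W).Point} (hP : P ∈ Ker1 W) (h0 : P ≠ 0) :
    ∃ k : ℕ, 1 ≤ k ∧ ‖xc P‖ = (q : ℝ) ^ (2 * k) := by
  have hx := (mem_Ker1.mp hP).resolve_left h0
  have h1 := (redCurve W).v_y_sq (isPlace q) (equation_of_ne_zero h0) hx
  refine exists_pow_of_sq_eq_cube (y := yc P) hx ?_
  have := congrArg (fun z : NNReal => (z : ℝ)) h1.1
  simpa using this

/-- No `q`-torsion in the kernel of reduction, `q` odd. -/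
theorem eq_zero_of_nsmul_self (hq2 : q ≠ 2) {P : (EK W).Point} (hP : P ∈ Ker1 W)
    (h : q • P = 0) : P = 0 := by
  by_contra h0
  obtain ⟨k, hk, hx⟩ := exists_pow_of_mem hP h0
  obtain ⟨hns, he⟩ := exists_eq_some h0
  have hodd : ¬ Even q := by
    rw [Nat.not_even_iff_odd]; exact hq.out.odd_of_ne_two hq2
  rw [he, Torsion.nsmul_eq_zero_iff, WeierstrassCurve.ΨSq_ofNat, if_neg hodd, mul_one, eval_pow,
    sq_eq_zero_iff, WeierstrassCurve.map_preΨ', eval_map] at h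
  have hqz : ((q : ℕ) : ℤ_[q]) ≠ 0 := by exact_mod_cast hq.out.ne_zero
  refine aeval_ne_zero (f := W.preΨ' q) (x := xc P) ?_ h
  rw [WeierstrassCurve.leadingCoeff_preΨ' W hqz, if_neg hodd, PadicInt.coe_natCast,
    Padic.norm_p, hx]
  have hq1 := q_one_lt (q := q)
  have h2 : (q : ℝ) ^ 2 ≤ (q : ℝ) ^ (2 * k) := pow_le_pow_right₀ hq1.le (by omega)
  have h3 : (q : ℝ)⁻¹ * (q : ℝ) ^ 2 = q := by field_simp
  calc (1 : ℝ) < q := hq1
    _ = (q : ℝ)⁻¹ * (q : ℝ) ^ 2 := h3.symm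
    _ ≤ (q : ℝ)⁻¹ * (q : ℝ) ^ (2 * k) := by gcongr

/-- No `n`-torsion in the kernel of reduction for `n` prime to `q`. -/
theorem eq_zero_of_nsmul_coprime {n : ℕ} (hn : q.Coprime n) {P : (EK W).Point} (hP : P ∈ Ker1 W)
    (h : n • P = 0) : P = 0 := by
  refine kernel_no_torsion (redCurve W) (isPlace q) ?_ hP h
  have h1 : ‖(n : ℚ_[q])‖ = 1 := Padic.norm_natCast_eq_one_iff.mpr hn
  exact NNReal.coe_injective (by rw [vq_eq, h1]; rfl)

section two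

variable {W : WeierstrassCurve ℤ_[2]} [DecidableEq ℚ_[2]]

omit [DecidableEq ℚ_[2]] in
lemma norm_b_le (c : ℤ_[2]) : ‖algebraMap ℤ_[2] ℚ_[2] c‖ ≤ 1 := PadicInt.norm_le_one c

omit [DecidableEq ℚ_[2]] in
lemma norm_le_of_two {a b c x : ℚ_[2]} (ha : ‖a‖ ≤ 1) (hb : ‖b‖ ≤ 1) (hc : ‖c‖ ≤ 1)
    (hx : 1 ≤ ‖x‖) : ‖a * x ^ 2 + 2 * b * x + c‖ ≤ ‖x‖ ^ 2 := by
  have hx2 : ‖x‖ ≤ ‖x‖ ^ 2 := by nlinarith [norm_nonneg x]
  have h2 : ‖(2 : ℚ_[2])‖ ≤ 1 := by
    have := PadicInt.norm_le_one (2 : ℤ_[2])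
    exact_mod_cast this
  refine (Padic.nonarchimedean _ _).trans (max_le ((Padic.nonarchimedean _ _).trans
    (max_le ?_ ?_)) ?_)
  · rw [norm_mul, norm_pow]
    nlinarith [norm_nonneg x, norm_nonneg a, pow_nonneg (norm_nonneg x) 2]
  · rw [norm_mul, norm_mul]
    have : ‖(2 : ℚ_[2])‖ * ‖b‖ ≤ 1 := mul_le_one₀ h2 (norm_nonneg _) hb
    nlinarith [norm_nonneg x, mul_nonneg (norm_nonneg (2 : ℚ_[2])) (norm_nonneg b)]
  · nlinarith

omit [DecidableEq ℚ_[2]] in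
lemma norm_four : ‖(4 : ℚ_[2])‖ = 1 / 4 := by
  have h1 : (4 : ℚ_[2]) = ((2 : ℕ) : ℚ_[2]) ^ 2 := by norm_num
  rw [h1, norm_pow, Padic.norm_p]
  norm_num

/-- A point of order `2` in the kernel of reduction has `‖x‖ = 4`. -/
lemma norm_xc_le_four {T : (EK W).Point} (hT : T ∈ Ker1 W) (h0 : T ≠ 0) (h2 : T + T = 0) :
    ‖xc T‖ ≤ 4 := by
  have hx := (mem_Ker1.mp hT).resolve_left h0
  have h := psi_eq_zero h0 h2
  have h1 : 4 * xc T ^ 3 = -((EK W).b₂ * xc T ^ 2 + 2 * (EK W).b₄ * xc T + (EK W).b₆) := by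
    linear_combination h
  have e2 : (EK W).b₂ = algebraMap ℤ_[2] ℚ_[2] W.b₂ := WeierstrassCurve.map_b₂ _ _
  have e4 : (EK W).b₄ = algebraMap ℤ_[2] ℚ_[2] W.b₄ := WeierstrassCurve.map_b₄ _ _
  have e6 : (EK W).b₆ = algebraMap ℤ_[2] ℚ_[2] W.b₆ := WeierstrassCurve.map_b₆ _ _
  have h3 : ‖4 * xc T ^ 3‖ ≤ ‖xc T‖ ^ 2 := by
    rw [h1, norm_neg, e2, e4, e6]
    exact norm_le_of_two (norm_b_le _) (norm_b_le _) (norm_b_le _) hx.le
  rw [norm_mul, norm_pow, norm_four] at h3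
  have h4 : 0 < ‖xc T‖ ^ 2 := by positivity
  nlinarith

/-- Doubling a point of the kernel of reduction. -/
lemma four_mul_norm_le {P : (EK W).Point} (hP : P ∈ Ker1 W) (h0 : P ≠ 0) (h2 : P + P ≠ 0) :
    4 * ‖xc P‖ ≤ ‖xc (P + P)‖ := by
  have hx := (mem_Ker1.mp hP).resolve_left h0
  obtain ⟨k, hk, hxk⟩ := exists_pow_of_mem hP h0
  have hx4 : 4 ≤ ‖xc P‖ := by
    rw [hxk]
    have : ((2 : ℕ) : ℝ) ^ 2 ≤ ((2 : ℕ) : ℝ) ^ (2 * k) :=
      pow_le_pow_right₀ (by norm_num) (by omega)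
    calc (4 : ℝ) = ((2 : ℕ) : ℝ) ^ 2 := by norm_num
      _ ≤ _ := this
  have h := xc_double h2
  have e2 : (EK W).b₂ = algebraMap ℤ_[2] ℚ_[2] W.b₂ := WeierstrassCurve.map_b₂ _ _
  have e4 : (EK W).b₄ = algebraMap ℤ_[2] ℚ_[2] W.b₄ := WeierstrassCurve.map_b₄ _ _
  have e6 : (EK W).b₆ = algebraMap ℤ_[2] ℚ_[2] W.b₆ := WeierstrassCurve.map_b₆ _ _
  have e8 : (EK W).b₈ = algebraMap ℤ_[2] ℚ_[2] W.b₈ := WeierstrassCurve.map_b₈ _ _
  set x := xc P
  set z := xc (P + P)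
  set D := 4 * x ^ 3 + (EK W).b₂ * x ^ 2 + 2 * (EK W).b₄ * x + (EK W).b₆ with hD
  set N := x ^ 4 - (EK W).b₄ * x ^ 2 - 2 * (EK W).b₆ * x - (EK W).b₈ with hN
  have hDle : ‖D‖ ≤ ‖x‖ ^ 3 / 4 := by
    have : D = 4 * x ^ 3 + ((EK W).b₂ * x ^ 2 + 2 * (EK W).b₄ * x + (EK W).b₆) := by
      rw [hD]; ring
    rw [this]
    refine (Padic.nonarchimedean _ _).trans (max_le ?_ ?_)
    · rw [norm_mul, norm_pow, norm_four]; linarith
    · rw [e2, e4, e6]
      refine (norm_le_of_two (norm_b_le _) (norm_b_le _) (norm_b_le _) hx.le).trans ?_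
      have : 0 < ‖x‖ ^ 2 := by positivity
      nlinarith
  have hNge : ‖x‖ ^ 4 ≤ ‖N‖ := by
    have h1 : x ^ 4 = N + ((EK W).b₄ * x ^ 2 + 2 * (EK W).b₆ * x + (EK W).b₈) := by
      rw [hN]; ring
    have h2 : ‖(EK W).b₄ * x ^ 2 + 2 * (EK W).b₆ * x + (EK W).b₈‖ ≤ ‖x‖ ^ 2 := by
      rw [e4, e6, e8]
      exact norm_le_of_two (norm_b_le _) (norm_b_le _) (norm_b_le _) hx.le
    have h3 : ‖x‖ ^ 4 ≤ max ‖N‖ (‖(EK W).b₄ * x ^ 2 + 2 * (EK W).b₆ * x + (EK W).b₈‖) := by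
      rw [← norm_pow, h1]
      exact Padic.nonarchimedean _ _
    rcases le_max_iff.mp h3 with h4 | h4
    · exact h4
    · exfalso
      have h5 := h4.trans h2
      have h6 : 16 ≤ ‖x‖ ^ 2 := by nlinarith
      have h7 : ‖x‖ ^ 4 = ‖x‖ ^ 2 * ‖x‖ ^ 2 := by ring
      nlinarith
  have h7 : ‖z‖ * ‖D‖ = ‖N‖ := by rw [← norm_mul, h]
  have h8 : ‖x‖ ^ 4 ≤ ‖z‖ * (‖x‖ ^ 3 / 4) := by
    refine hNge.trans ?_
    rw [← h7]
    exact mul_le_mul_of_nonneg_left hDle (norm_nonneg z)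
  have h9 : 0 < ‖x‖ ^ 3 := by positivity
  nlinarith

/-- No point of order `4` in the kernel of reduction at `2`. -/
theorem add_self_eq_zero_of_four {P : (EK W).Point} (hP : P ∈ Ker1 W) (h4 : 4 • P = 0) :
    P + P = 0 := by
  by_contra h2
  have h0 : P ≠ 0 := by rintro rfl; exact h2 (add_zero _)
  have hT : P + P ∈ Ker1 W := add_mem hP hP
  have h22 : (P + P) + (P + P) = 0 := by
    rw [← h4]; abel
  have h3 := norm_xc_le_four hT h2 h22
  have h5 := four_mul_norm_le hP h0 h2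
  have hx := (mem_Ker1.mp hP).resolve_left h0
  linarith

end two

/-- **Torsion in the kernel of reduction over `ℚ_q`**: only for `q = 2`, and killed by `2`. -/
theorem torsion_of_mem_Ker1 {P : (EK W).Point} (hP : P ∈ Ker1 W) (hfin : IsOfFinAddOrder P) :
    P = 0 ∨ q = 2 ∧ 2 • P = 0 := by
  by_cases h0 : P = 0
  · exact Or.inl h0
  right
  set m := addOrderOf P with hm
  have hm0 : 0 < m := hfin.addOrderOf_pos
  have hmP : m • P = 0 := addOrderOf_nsmul_eq_zero P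
  -- for a prime divisor of the order
  have key : ∀ ℓ : ℕ, ℓ.Prime → ℓ ∣ m → ℓ = q ∧ q = 2 := by
    intro ℓ hℓ ⟨c, hc⟩
    have hR : c • P ∈ Ker1 W := nsmul_mem hP c
    have hR0 : c • P ≠ 0 := by
      intro h
      have h1 : m ∣ c := addOrderOf_dvd_iff_nsmul_eq_zero.mpr h
      have hc0 : 0 < c := by
        rcases Nat.eq_zero_or_pos c with rfl | h'
        · omega
        · exact h'
      have h2 := Nat.le_of_dvd hc0 h1
      have h3 := hℓ.two_le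
      nlinarith
    have hℓR : ℓ • (c • P) = 0 := by rw [← mul_nsmul', ← hc]; exact hmP
    by_cases hℓq : ℓ = q
    · refine ⟨hℓq, ?_⟩
      by_contra hq2
      subst hℓq
      exact hR0 (eq_zero_of_nsmul_self hq2 hR hℓR)
    · exfalso
      exact hR0 (eq_zero_of_nsmul_coprime ((Nat.coprime_primes hq.out hℓ).mpr (Ne.symm hℓq)) hR hℓR)
  have hm1 : m ≠ 1 := by
    intro h
    exact h0 (AddMonoid.addOrderOf_eq_one_iff.mp h)
  obtain ⟨ℓ, hℓ, hℓm⟩ := Nat.exists_prime_and_dvd hm1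
  obtain ⟨hℓq, hq2⟩ := key ℓ hℓ hℓm
  refine ⟨hq2, ?_⟩
  subst hq2
  have h2m : 2 ∣ m := by rw [← hℓq]; exact hℓm
  have hpow : ∃ n, m = 2 ^ n := by
    refine (Nat.eq_prime_pow_of_unique_prime_dvd hm0.ne' fun {d} hd hdm => ?_) |> fun h => ⟨_, h⟩
    exact (key d hd hdm).1
  obtain ⟨n, hn⟩ := hpow
  rcases n with _ | _ | n
  · simp at hn; omega
  · rw [hn] at hmP; simpa using hmP
  · exfalso
    have hR : 2 ^ n • P ∈ Ker1 W := nsmul_mem hP _
    have h4 : 4 • (2 ^ n • P) = 0 := by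
      rw [← mul_nsmul', show 4 * 2 ^ n = 2 ^ (n + 2) by ring, ← hn]; exact hmP
    have h5 := add_self_eq_zero_of_four hR h4
    rw [← two_nsmul, ← mul_nsmul'] at h5
    have h6 : m ∣ 2 * 2 ^ n := addOrderOf_dvd_iff_nsmul_eq_zero.mpr h5
    rw [hn] at h6
    have h7 := Nat.le_of_dvd (by positivity) h6
    have h8 : 2 ^ (n + 2) = 2 * (2 * 2 ^ n) := by ring
    have h9 : 0 < 2 ^ n := by positivity
    omega

end Fermat.Agent.Cor.LN
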