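import Fermat.Agent.Corollaries.LN.Integral

/-!
# The Lutz-Nagell theorem

Let `y² = x³ + A x + B` with `A, B ∈ ℤ` and let `(x, y)` be a rational point of finite order. Then
`x, y ∈ ℤ`, and `y = 0` or `y² ∣ 4 A³ + 27 B²`.
-/

set_option autoImplicit false

open WeierstrassCurve WeierstrassCurve.Affine
open Fermat.Agent.ECRed

namespace Fermat.Agent.Cor.LN

/-- The curve `y² = x³ + A x + B` over `ℤ`. -/
def shortZ (A B : ℤ) : WeierstrassCurve ℤ := ⟨0, 0, 0, A, B⟩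

variable {A B : ℤ}

lemma norm_intCast_le_one (q : ℕ) [Fact q.Prime] (n : ℤ) : ‖(n : ℚ_[q])‖ ≤ 1 := by
  have := PadicInt.norm_le_one (n : ℤ_[q])
  exact_mod_cast this

lemma exists_int_of_cubic {x : ℚ} (h : x ^ 3 + A * x + B = 0) : ∃ a : ℤ, x = a := by
  refine exists_int_of_norm_le_one fun q _ => ?_
  by_contra hx
  rw [not_le] at hx
  have h1 : (x : ℚ_[q]) ^ 3 = -(A * x + B) := by
    have := congrArg (fun z : ℚ => (z : ℚ_[q])) h
    push_cast at this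
    linear_combination this
  have h2 : ‖(x : ℚ_[q])‖ ^ 3 ≤ ‖(x : ℚ_[q])‖ := by
    rw [← norm_pow, h1, norm_neg]
    refine (Padic.nonarchimedean _ _).trans (max_le ?_ ?_)
    · rw [norm_mul]
      calc ‖(A : ℚ_[q])‖ * ‖(x : ℚ_[q])‖ ≤ 1 * ‖(x : ℚ_[q])‖ := by
            gcongr; exact norm_intCast_le_one q A
        _ = _ := one_mul _
    · exact (norm_intCast_le_one q B).trans hx.le
  have h3 : ‖(x : ℚ_[q])‖ ^ 3 = ‖(x : ℚ_[q])‖ * (‖(x : ℚ_[q])‖ * ‖(x : ℚ_[q])‖) := by ring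
  nlinarith

/-- The coordinates of a torsion point on `y² = x³ + A x + B` are integral. -/
theorem exists_int_of_short {P : (EQQ (shortZ A B)).Point} (h0 : P ≠ 0)
    (hfin : IsOfFinAddOrder P) : ∃ a b : ℤ, xc P = a ∧ yc P = b := by
  by_cases h2 : 2 • P = 0
  · obtain ⟨hns, he⟩ := exists_eq_some h0
    have h3 := h2
    rw [two_nsmul, he, add_self_eq_zero_iff, negY] at h3
    have e1 : (EQQ (shortZ A B)).a₁ = 0 := Int.cast_zero
    have e3 : (EQQ (shortZ A B)).a₃ = 0 := Int.cast_zero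
    rw [e1, e3] at h3
    have hy : yc P = 0 := by linarith
    have heq := equation_of_ne_zero h0
    rw [equation_iff, hy, e1, e3] at heq
    have e2 : (EQQ (shortZ A B)).a₂ = 0 := Int.cast_zero
    have e4 : (EQQ (shortZ A B)).a₄ = A := rfl
    have e6 : (EQQ (shortZ A B)).a₆ = B := rfl
    rw [e2, e4, e6] at heq
    obtain ⟨a, ha⟩ := exists_int_of_cubic (A := A) (B := B) (x := xc P) (by linear_combination -heq)
    exact ⟨a, 0, ha, by rw [hy]; simp⟩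
  · exact exists_int_of_torsion hfin h2

/-- **The Lutz-Nagell theorem** for a point of the curve. -/
theorem lutz_nagell_point {P : (EQQ (shortZ A B)).Point} (h0 : P ≠ 0) (hfin : IsOfFinAddOrder P) :
    ∃ a b : ℤ, xc P = a ∧ yc P = b ∧ b ^ 2 = a ^ 3 + A * a + B ∧
      (b = 0 ∨ b ^ 2 ∣ 4 * A ^ 3 + 27 * B ^ 2) := by
  obtain ⟨a, b, ha, hb⟩ := exists_int_of_short h0 hfin
  have e1 : (EQQ (shortZ A B)).a₁ = 0 := Int.cast_zero
  have e2 : (EQQ (shortZ A B)).a₂ = 0 := Int.cast_zero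
  have e3 : (EQQ (shortZ A B)).a₃ = 0 := Int.cast_zero
  have e4 : (EQQ (shortZ A B)).a₄ = A := rfl
  have e6 : (EQQ (shortZ A B)).a₆ = B := rfl
  have heq := equation_of_ne_zero h0
  rw [equation_iff, e1, e2, e3, e4, e6, ha, hb] at heq
  have heq' : b ^ 2 = a ^ 3 + A * a + B := by
    have : ((b ^ 2 : ℤ) : ℚ) = ((a ^ 3 + A * a + B : ℤ) : ℚ) := by
      push_cast; linear_combination heq
    exact_mod_cast this
  refine ⟨a, b, ha, hb, heq', ?_⟩
  by_cases hb0 : b = 0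
  · exact Or.inl hb0
  right
  have h2 : P + P ≠ 0 := by
    intro h
    obtain ⟨hns, he⟩ := exists_eq_some h0
    rw [he, add_self_eq_zero_iff, negY, e1, e3, hb] at h
    apply hb0
    have : (b : ℚ) = 0 := by linarith
    exact_mod_cast this
  have hfin2 : IsOfFinAddOrder (P + P) := by
    rw [← two_nsmul]; exact hfin.nsmul
  obtain ⟨c, -, hc, -⟩ := exists_int_of_short h2 hfin2
  have hd := xc_double h2
  have f2 : (EQQ (shortZ A B)).b₂ = 0 := by rw [WeierstrassCurve.b₂, e1, e2]; ring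
  have f4 : (EQQ (shortZ A B)).b₄ = 2 * A := by rw [WeierstrassCurve.b₄, e1, e3, e4]; ring
  have f6 : (EQQ (shortZ A B)).b₆ = 4 * B := by rw [WeierstrassCurve.b₆, e3, e6]; ring
  have f8 : (EQQ (shortZ A B)).b₈ = -A ^ 2 := by
    rw [WeierstrassCurve.b₈, e1, e2, e3, e4, e6]; ring
  rw [f2, f4, f6, f8, ha, hc] at hd
  have hd' : 4 * b ^ 2 * c = a ^ 4 - 2 * A * a ^ 2 - 8 * B * a + A ^ 2 := by
    have : ((4 * b ^ 2 * c : ℤ) : ℚ) =
        ((a ^ 4 - 2 * A * a ^ 2 - 8 * B * a + A ^ 2 : ℤ) : ℚ) := by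
      push_cast
      linear_combination hd + 4 * (c : ℚ) * heq
    exact_mod_cast this
  refine ⟨4 * c * (3 * a ^ 2 + 4 * A) - (3 * a ^ 3 - 5 * A * a - 27 * B), ?_⟩
  linear_combination (-(3 * a ^ 2 + 4 * A)) * hd' + (3 * a ^ 3 - 5 * A * a - 27 * B) * heq'

/-- **The Lutz-Nagell theorem**. Let `A, B ∈ ℤ` and let `(x, y)` be a rational point of finite order
of the curve `y² = x³ + A x + B`. Then `x` and `y` are integers, and `y = 0` or `y²` divides
`4 A³ + 27 B²`. -/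
theorem lutz_nagell (A B : ℤ) {x y : ℚ}
    (h : (⟨0, 0, 0, A, B⟩ : WeierstrassCurve ℚ).toAffine.Nonsingular x y)
    (hfin : IsOfFinAddOrder (Point.some x y h)) :
    ∃ a b : ℤ, x = a ∧ y = b ∧ (b = 0 ∨ b ^ 2 ∣ 4 * A ^ 3 + 27 * B ^ 2) := by
  have key : ∀ E : Affine ℚ, E = EQQ (shortZ A B) → ∀ P : E.Point, P ≠ 0 → IsOfFinAddOrder P →
      ∃ a b : ℤ, xc P = a ∧ yc P = b ∧ (b = 0 ∨ b ^ 2 ∣ 4 * A ^ 3 + 27 * B ^ 2) := by
    rintro E rfl P h0 hfin
    obtain ⟨a, b, ha, hb, -, hab⟩ := lutz_nagell_point h0 hfin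
    exact ⟨a, b, ha, hb, hab⟩
  have hE : (⟨0, 0, 0, A, B⟩ : WeierstrassCurve ℚ).toAffine = EQQ (shortZ A B) := by
    refine WeierstrassCurve.ext ?_ ?_ ?_ ?_ ?_ <;> simp [EQQ, shortZ, WeierstrassCurve.map]
  exact key _ hE _ (Point.some_ne_zero h) hfin

end Fermat.Agent.Cor.LN
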