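import Fermat.Agent.Corollaries.LN.Count

/-!
# Points of small order on `y² = x³ + A x + B`
-/

set_option autoImplicit false

open WeierstrassCurve WeierstrassCurve.Affine
open Fermat.Agent.ECRed

namespace Fermat.Agent.Cor.LN

variable {A B : ℤ}

/-- The equation of the curve. -/
lemma eq_short {P : (EQQ (shortZ A B)).Point} (h : P ≠ 0) :
    yc P ^ 2 = xc P ^ 3 + A * xc P + B := by
  have e1 : (EQQ (shortZ A B)).a₁ = 0 := Int.cast_zero
  have e2 : (EQQ (shortZ A B)).a₂ = 0 := Int.cast_zero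
  have e3 : (EQQ (shortZ A B)).a₃ = 0 := Int.cast_zero
  have e4 : (EQQ (shortZ A B)).a₄ = A := rfl
  have e6 : (EQQ (shortZ A B)).a₆ = B := rfl
  have heq := equation_of_ne_zero h
  rw [equation_iff, e1, e2, e3, e4, e6] at heq
  linear_combination heq

/-- A solution of the equation is a point. -/
lemma exists_pt (hΔ : (shortZ A B).Δ ≠ 0) {x y : ℚ} (h : y ^ 2 = x ^ 3 + A * x + B) :
    ∃ P : (EQQ (shortZ A B)).Point, P ≠ 0 ∧ xc P = x ∧ yc P = y := by
  have e1 : (EQQ (shortZ A B)).a₁ = 0 := Int.cast_zero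
  have e2 : (EQQ (shortZ A B)).a₂ = 0 := Int.cast_zero
  have e3 : (EQQ (shortZ A B)).a₃ = 0 := Int.cast_zero
  have e4 : (EQQ (shortZ A B)).a₄ = A := rfl
  have e6 : (EQQ (shortZ A B)).a₆ = B := rfl
  have hΔ' : (EQQ (shortZ A B)).Δ ≠ 0 := by
    rw [WeierstrassCurve.map_Δ, eq_intCast]
    exact_mod_cast hΔ
  have h1 : (EQQ (shortZ A B)).Equation x y := by
    rw [equation_iff, e1, e2, e3, e4, e6]
    linear_combination h
  have h2 := (equation_iff_nonsingular_of_Δ_ne_zero hΔ').mp h1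
  exact ⟨.some x y h2, Point.some_ne_zero _, rfl, rfl⟩

/-- The points of order `2`. -/
lemma add_self_eq_zero_short {P : (EQQ (shortZ A B)).Point} (h : P ≠ 0) :
    P + P = 0 ↔ yc P = 0 := by
  have e1 : (EQQ (shortZ A B)).a₁ = 0 := Int.cast_zero
  have e3 : (EQQ (shortZ A B)).a₃ = 0 := Int.cast_zero
  obtain ⟨hns, he⟩ := exists_eq_some h
  have h1 : P + P = 0 ↔ yc P = (EQQ (shortZ A B)).negY (xc P) (yc P) := by
    conv_lhs => rw [he]
    exact add_self_eq_zero_iff hns
  rw [h1, negY, e1, e3]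
  constructor
  · intro h2; linarith
  · intro h2; rw [h2]; ring

/-- The duplication formula. -/
lemma xc_double_short {P : (EQQ (shortZ A B)).Point} (h : P + P ≠ 0) :
    xc (P + P) * (4 * yc P ^ 2) = xc P ^ 4 - 2 * A * xc P ^ 2 - 8 * B * xc P + A ^ 2 := by
  have h0 : P ≠ 0 := by rintro rfl; exact h (add_zero _)
  have e1 : (EQQ (shortZ A B)).a₁ = 0 := Int.cast_zero
  have e2 : (EQQ (shortZ A B)).a₂ = 0 := Int.cast_zero
  have e3 : (EQQ (shortZ A B)).a₃ = 0 := Int.cast_zero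
  have e4 : (EQQ (shortZ A B)).a₄ = A := rfl
  have e6 : (EQQ (shortZ A B)).a₆ = B := rfl
  have f2 : (EQQ (shortZ A B)).b₂ = 0 := by rw [WeierstrassCurve.b₂, e1, e2]; ring
  have f4 : (EQQ (shortZ A B)).b₄ = 2 * A := by rw [WeierstrassCurve.b₄, e1, e3, e4]; ring
  have f6 : (EQQ (shortZ A B)).b₆ = 4 * B := by rw [WeierstrassCurve.b₆, e3, e6]; ring
  have f8 : (EQQ (shortZ A B)).b₈ = -A ^ 2 := by
    rw [WeierstrassCurve.b₈, e1, e2, e3, e4, e6]; ring
  have hd := xc_double h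
  rw [f2, f4, f6, f8] at hd
  rw [eq_short h0]
  linear_combination hd

/-- The points of order `3`. -/
lemma three_nsmul_eq_zero_iff {P : (EQQ (shortZ A B)).Point} (h0 : P ≠ 0) (h2 : P + P ≠ 0) :
    3 • P = 0 ↔ xc (P + P) = xc P := by
  have h3 : (3 • P : (EQQ (shortZ A B)).Point) = P + P + P := by
    rw [succ_nsmul, two_nsmul]
  rw [h3, xc_eq_iff h2 h0]
  constructor
  · intro h
    exact Or.inr (eq_neg_of_add_eq_zero_left h)
  · rintro (h | h)
    · exact absurd (left_eq_add.mp h.symm) h0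
    · rw [h, neg_add_cancel]

/-- Points with the same abscissa and the same ordinate are equal. -/
lemma pt_ext {P Q : (EQQ (shortZ A B)).Point} (hP : P ≠ 0) (hQ : Q ≠ 0) (hx : xc P = xc Q)
    (hy : yc P = yc Q) : P = Q := point_ext hP hQ hx hy

/-- The order of a torsion point divides the order of the torsion subgroup. -/
lemma addOrderOf_dvd_card_torsion {W : WeierstrassCurve ℤ} {P : (EQQ W).Point}
    (hfin : IsOfFinAddOrder P) :
    addOrderOf P ∣ Nat.card (AddCommGroup.torsion (EQQ W).Point) := by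
  have h1 := addOrderOf_dvd_natCard (⟨P, hfin⟩ : AddCommGroup.torsion (EQQ W).Point)
  rwa [← AddSubgroup.addOrderOf_coe] at h1

end Fermat.Agent.Cor.LN
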