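import Fermat.Agent.Corollaries.LN.Short

/-!
# The torsion points of `y² = x³ + A x`

`A ∈ ℤ`, `A ≠ 0`. A rational point `(x, y)` has finite order iff `y = 0` (order `2`) or `x² = A`
(order `4`). The torsion subgroup has order `2` or `4`; it is cyclic of order `4` iff `A = 4 c⁴` and
isomorphic to `(ℤ/2)²` iff `A = -c²`, with `c` rational.
-/

set_option autoImplicit false

open WeierstrassCurve WeierstrassCurve.Affine
open Fermat.Agent.ECRed

namespace Fermat.Agent.Cor.LN

section abstract_

variable {G : Type*} [AddCommGroup G]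

/-- The element of order `2` of the group generated by an element of order `4`. -/
lemma eq_add_self_of_mem {P R : G} (hP : addOrderOf P = 4) (hR : R ∈ AddSubgroup.zmultiples P)
    (hR2 : R + R = 0) (hR0 : R ≠ 0) : R = P + P := by
  obtain ⟨k, hk⟩ := AddSubgroup.mem_zmultiples_iff.mp hR
  have h4 : (4 : ℤ) • P = 0 := by
    have : (4 : ℕ) • P = 0 := by rw [← hP]; exact addOrderOf_nsmul_eq_zero P
    exact_mod_cast this
  have hk4 : (4 : ℤ) ∣ 2 * k := by
    have h5 : (2 * k) • P = 0 := by
      rw [mul_smul, hk, two_zsmul]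
      exact hR2
    have := addOrderOf_dvd_iff_zsmul_eq_zero.mpr h5
    rwa [hP] at this
  obtain ⟨j, hj⟩ : ∃ j : ℤ, k = 2 * j := ⟨k / 2, by omega⟩
  rcases Int.even_or_odd j with ⟨i, hi⟩ | ⟨i, hi⟩
  · exfalso
    apply hR0
    rw [← hk, hj, hi, show 2 * (i + i) = i * 4 by ring, mul_smul, h4, smul_zero]
  · rw [← hk, hj, hi, show 2 * (2 * i + 1) = i * 4 + 2 by ring, add_smul, mul_smul, h4,
      smul_zero, zero_add, two_zsmul]

/-- The group generated by an element of order `2`. -/
lemma eq_zero_or_eq_of_mem {P R : G} (hR : R + R = 0) (hP : P ∈ AddSubgroup.zmultiples R) :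
    P = 0 ∨ P = R := by
  obtain ⟨k, hk⟩ := AddSubgroup.mem_zmultiples_iff.mp hP
  have hR2 : (2 : ℤ) • R = 0 := by rw [two_zsmul]; exact hR
  rcases Int.even_or_odd' k with ⟨i, hi | hi⟩
  · left
    rw [← hk, hi, mul_comm, mul_smul, hR2, smul_zero]
  · right
    rw [← hk, hi, add_smul, mul_comm, mul_smul, hR2, smul_zero, zero_add, one_smul]

end abstract_

variable {A : ℤ}

lemma Δ_left_ne_zero (hA : A ≠ 0) : (shortZ A 0).Δ ≠ 0 := by
  rw [Δ_left]
  exact mul_ne_zero (by norm_num) (pow_ne_zero 3 hA)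

lemma eq_left {P : (EQQ (shortZ A 0)).Point} (h : P ≠ 0) :
    yc P ^ 2 = xc P * (xc P ^ 2 + A) := by
  have := eq_short h
  push_cast at this
  linear_combination this

lemma xc_double_left {P : (EQQ (shortZ A 0)).Point} (h : P + P ≠ 0) :
    xc (P + P) * (4 * yc P ^ 2) = (xc P ^ 2 - A) ^ 2 := by
  have := xc_double_short h
  push_cast at this
  linear_combination this

/-- The point `(0, 0)`. -/
lemma exists_zero_pt (hA : A ≠ 0) : ∃ R : (EQQ (shortZ A 0)).Point, R ≠ 0 ∧ xc R = 0 ∧ yc R = 0 :=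
  exists_pt (Δ_left_ne_zero hA) (by push_cast; ring)

/-- **The points of order `2`** of `y² = x³ + A x`: `y = 0`. -/
theorem addOrderOf_eq_two_left {P : (EQQ (shortZ A 0)).Point} (h0 : P ≠ 0) :
    addOrderOf P = 2 ↔ yc P = 0 := by
  rw [← add_self_eq_zero_short h0, ← two_nsmul]
  constructor
  · intro h
    rw [← h]
    exact addOrderOf_nsmul_eq_zero P
  · intro h
    exact addOrderOf_eq_prime h h0

/-- **The points of order `4`** of `y² = x³ + A x`: `x² = A`. -/
theorem addOrderOf_eq_four_left (hA : A ≠ 0) {P : (EQQ (shortZ A 0)).Point} (h0 : P ≠ 0) :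
    addOrderOf P = 4 ↔ xc P ^ 2 = A := by
  have hA' : (A : ℚ) ≠ 0 := by exact_mod_cast hA
  constructor
  · intro h
    have hfin : IsOfFinAddOrder P := addOrderOf_pos_iff.mp (by omega)
    have := finite_torsion (Δ_left_ne_zero hA)
    -- the torsion subgroup is generated by `P`
    have hle : AddSubgroup.zmultiples P ≤ AddCommGroup.torsion (EQQ (shortZ A 0)).Point := by
      rw [AddSubgroup.zmultiples_le]
      exact hfin
    have heq : AddSubgroup.zmultiples P = AddCommGroup.torsion (EQQ (shortZ A 0)).Point := by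
      refine AddSubgroup.eq_of_le_of_card_ge hle ?_
      rw [Nat.card_zmultiples, h]
      exact Nat.le_of_dvd (by norm_num) (card_torsion_dvd_four hA)
    obtain ⟨R, hR0, hRx, hRy⟩ := exists_zero_pt hA
    have hR2 : R + R = 0 := (add_self_eq_zero_short hR0).mpr hRy
    have hR : R ∈ AddSubgroup.zmultiples P := by
      rw [heq]
      exact isOfFinAddOrder_iff_nsmul_eq_zero.mpr ⟨2, by norm_num, by rw [two_nsmul]; exact hR2⟩
    have h2P : P + P ≠ 0 := by
      intro h5
      have h6 : (2 : ℕ) • P = 0 := by rw [two_nsmul]; exact h5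
      have := Nat.le_of_dvd (by norm_num) (addOrderOf_dvd_iff_nsmul_eq_zero.mpr h6)
      omega
    have hRP : R = P + P := eq_add_self_of_mem h hR hR2 hR0
    have hd := xc_double_left h2P
    rw [← hRP, hRx, zero_mul] at hd
    have := pow_eq_zero_iff (two_ne_zero) |>.mp hd.symm
    linarith
  · intro h
    have hx : xc P ≠ 0 := by
      intro hx
      rw [hx] at h
      apply hA'
      rw [← h]; ring
    have hy2 := eq_left h0
    rw [← h] at hy2
    have hy : yc P ≠ 0 := by
      intro hy
      rw [hy] at hy2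
      have : xc P ^ 3 = 0 := by linarith
      exact hx (pow_eq_zero_iff (by norm_num) |>.mp this)
    have h2P : P + P ≠ 0 := fun h5 => hy ((add_self_eq_zero_short h0).mp h5)
    have hd := xc_double_left h2P
    rw [h, sub_self, zero_pow two_ne_zero] at hd
    have hx2 : xc (P + P) = 0 := by
      rcases mul_eq_zero.mp hd with h5 | h5
      · exact h5
      · exact absurd h5 (mul_ne_zero (by norm_num) (pow_ne_zero 2 hy))
    have hy2' := eq_left h2P
    rw [hx2, zero_mul] at hy2'
    have hy3 : yc (P + P) = 0 := pow_eq_zero_iff two_ne_zero |>.mp hy2'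
    have h4 : (P + P) + (P + P) = 0 := (add_self_eq_zero_short h2P).mpr hy3
    refine addOrderOf_eq_prime_pow (p := 2) (n := 1) ?_ ?_
    · rw [pow_one, two_nsmul]; exact h2P
    · rw [show 2 ^ (1 + 1) = 2 * 2 by norm_num, mul_nsmul, two_nsmul, two_nsmul]
      exact h4

/-- **The torsion points of `y² = x³ + A x`.** -/
theorem isOfFinAddOrder_left_iff (hA : A ≠ 0) {P : (EQQ (shortZ A 0)).Point} (h0 : P ≠ 0) :
    IsOfFinAddOrder P ↔ yc P = 0 ∨ xc P ^ 2 = A := by
  rw [← addOrderOf_eq_two_left h0, ← addOrderOf_eq_four_left hA h0]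
  constructor
  · intro h
    have h1 := (addOrderOf_dvd_card_torsion h).trans (card_torsion_dvd_four hA)
    have h2 : addOrderOf P ≠ 1 := fun h3 => h0 (AddMonoid.addOrderOf_eq_one_iff.mp h3)
    have h3 : addOrderOf P ≤ 4 := Nat.le_of_dvd (by norm_num) h1
    have h4 : addOrderOf P ≠ 0 := h.addOrderOf_pos.ne'
    have h5 : addOrderOf P ≠ 3 := fun h6 => by rw [h6] at h1; norm_num at h1
    omega
  · rintro (h | h) <;> exact addOrderOf_pos_iff.mp (by omega)

/-- There is a point of order `4` iff `A = 4 c⁴`. -/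
theorem exists_addOrderOf_eq_four_iff (hA : A ≠ 0) :
    (∃ P : (EQQ (shortZ A 0)).Point, addOrderOf P = 4) ↔ ∃ c : ℚ, (A : ℚ) = 4 * c ^ 4 := by
  have hA' : (A : ℚ) ≠ 0 := by exact_mod_cast hA
  constructor
  · rintro ⟨P, hP⟩
    have h0 : P ≠ 0 := by
      rintro rfl
      rw [addOrderOf_zero] at hP
      norm_num at hP
    have h := (addOrderOf_eq_four_left hA h0).mp hP
    have hx : xc P ≠ 0 := by
      intro hx
      rw [hx] at h
      apply hA'
      rw [← h]; ring
    have hy2 := eq_left h0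
    rw [← h] at hy2
    refine ⟨yc P / (2 * xc P), ?_⟩
    have h5 : yc P ^ 4 = 4 * xc P ^ 6 := by
      calc yc P ^ 4 = (yc P ^ 2) ^ 2 := by ring
        _ = _ := by rw [hy2]; ring
    rw [div_pow, h5, ← h]
    field_simp
    ring
  · rintro ⟨c, hc⟩
    have hc0 : c ≠ 0 := by
      rintro rfl
      apply hA'
      rw [hc]; ring
    obtain ⟨P, h0, hx, hy⟩ := exists_pt (A := A) (B := 0) (Δ_left_ne_zero hA)
      (x := 2 * c ^ 2) (y := 4 * c ^ 3) (by rw [hc]; push_cast; ring)
    exact ⟨P, (addOrderOf_eq_four_left hA h0).mpr (by rw [hx, hc]; ring)⟩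

/-- All points of order `2` are rational iff `-A` is a square. -/
theorem exists_ne_zero_iff (hA : A ≠ 0) :
    (∃ P : (EQQ (shortZ A 0)).Point, addOrderOf P = 2 ∧ xc P ≠ 0) ↔
      ∃ c : ℚ, (A : ℚ) = -c ^ 2 := by
  have hA' : (A : ℚ) ≠ 0 := by exact_mod_cast hA
  constructor
  · rintro ⟨P, hP, hx⟩
    have h0 : P ≠ 0 := by
      rintro rfl
      rw [addOrderOf_zero] at hP
      norm_num at hP
    have hy := (addOrderOf_eq_two_left h0).mp hP
    have h := eq_left h0
    rw [hy, zero_pow two_ne_zero] at h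
    exact ⟨xc P, by linarith [(mul_eq_zero.mp h.symm).resolve_left hx]⟩
  · rintro ⟨c, hc⟩
    have hc0 : c ≠ 0 := by
      rintro rfl
      apply hA'
      rw [hc]; ring
    obtain ⟨P, h0, hx, hy⟩ := exists_pt (A := A) (B := 0) (Δ_left_ne_zero hA)
      (x := c) (y := 0) (by rw [hc]; push_cast; ring)
    exact ⟨P, (addOrderOf_eq_two_left h0).mpr hy, by rwa [hx]⟩

/-- **The order of the torsion subgroup of `y² = x³ + A x`** is `2` or `4`. -/
theorem card_torsion_left (hA : A ≠ 0) :
    Nat.card (AddCommGroup.torsion (EQQ (shortZ A 0)).Point) = 2 ∨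
      Nat.card (AddCommGroup.torsion (EQQ (shortZ A 0)).Point) = 4 := by
  obtain ⟨R, hR0, hRx, hRy⟩ := exists_zero_pt hA
  have hR2 : addOrderOf R = 2 := (addOrderOf_eq_two_left hR0).mpr hRy
  have h1 := addOrderOf_dvd_card_torsion (P := R) (addOrderOf_pos_iff.mp (by omega))
  rw [hR2] at h1
  have h2 := card_torsion_dvd_four hA
  have h3 := Nat.le_of_dvd (by norm_num) h2
  interval_cases Nat.card (AddCommGroup.torsion (EQQ (shortZ A 0)).Point) <;> omega

/-- **The torsion subgroup of `y² = x³ + A x`** has four elements iff `A = 4 c⁴` (then it is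
cyclic) or `A = -c²` (then it is killed by `2`); otherwise it has two elements. -/
theorem card_torsion_left_eq_four_iff (hA : A ≠ 0) :
    Nat.card (AddCommGroup.torsion (EQQ (shortZ A 0)).Point) = 4 ↔
      (∃ c : ℚ, (A : ℚ) = 4 * c ^ 4) ∨ ∃ c : ℚ, (A : ℚ) = -c ^ 2 := by
  have := finite_torsion (Δ_left_ne_zero hA)
  obtain ⟨R, hR0, hRx, hRy⟩ := exists_zero_pt hA
  have hR2 : addOrderOf R = 2 := (addOrderOf_eq_two_left hR0).mpr hRy
  have hRfin : IsOfFinAddOrder R := addOrderOf_pos_iff.mp (by omega)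
  constructor
  · intro h
    -- there is a torsion point outside of `{0, R}`
    obtain ⟨P, hP, hPR⟩ : ∃ P : (EQQ (shortZ A 0)).Point, IsOfFinAddOrder P ∧
        P ∉ AddSubgroup.zmultiples R := by
      by_contra hcon
      push Not at hcon
      have hle : AddCommGroup.torsion (EQQ (shortZ A 0)).Point ≤ AddSubgroup.zmultiples R :=
        fun P hP => hcon P hP
      have hfin : Finite (AddSubgroup.zmultiples R) :=
        Nat.finite_of_card_ne_zero (by rw [Nat.card_zmultiples, hR2]; norm_num)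
      have := AddSubgroup.card_le_of_le hle
      rw [Nat.card_zmultiples, hR2, h] at this
      omega
    have h0 : P ≠ 0 := by
      rintro rfl
      exact hPR (zero_mem _)
    rcases (isOfFinAddOrder_left_iff hA h0).mp hP with hy | hx
    · right
      refine (exists_ne_zero_iff hA).mp ⟨P, (addOrderOf_eq_two_left h0).mpr hy, fun hx => ?_⟩
      apply hPR
      rw [pt_ext h0 hR0 (hx.trans hRx.symm) (hy.trans hRy.symm)]
      exact AddSubgroup.mem_zmultiples R
    · left
      exact (exists_addOrderOf_eq_four_iff hA).mp ⟨P, (addOrderOf_eq_four_left hA h0).mpr hx⟩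
  · rintro (h | h)
    · obtain ⟨P, hP⟩ := (exists_addOrderOf_eq_four_iff hA).mpr h
      have h1 := addOrderOf_dvd_card_torsion (P := P) (addOrderOf_pos_iff.mp (by omega))
      rw [hP] at h1
      exact Nat.dvd_antisymm (card_torsion_dvd_four hA) h1
    · obtain ⟨P, hP, hx⟩ := (exists_ne_zero_iff hA).mpr h
      rcases card_torsion_left hA with h2 | h2
      · exfalso
        have hle : AddSubgroup.zmultiples R ≤ AddCommGroup.torsion (EQQ (shortZ A 0)).Point := by
          rw [AddSubgroup.zmultiples_le]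
          exact hRfin
        have heq := AddSubgroup.eq_of_le_of_card_ge hle (by rw [Nat.card_zmultiples, hR2, h2])
        have hPR : P ∈ AddSubgroup.zmultiples R := by
          rw [heq]
          exact addOrderOf_pos_iff.mp (by omega)
        rcases eq_zero_or_eq_of_mem ((add_self_eq_zero_short hR0).mpr hRy) hPR with rfl | rfl
        · rw [addOrderOf_zero] at hP
          norm_num at hP
        · exact hx hRx
      · exact h2

/-- `A = 4 c⁴`: the torsion subgroup is cyclic (of order `4`). -/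
theorem isAddCyclic_torsion_left (hA : A ≠ 0) (h : ∃ c : ℚ, (A : ℚ) = 4 * c ^ 4) :
    IsAddCyclic (AddCommGroup.torsion (EQQ (shortZ A 0)).Point) := by
  have := finite_torsion (Δ_left_ne_zero hA)
  obtain ⟨P, hP⟩ := (exists_addOrderOf_eq_four_iff hA).mpr h
  have hfin : IsOfFinAddOrder P := addOrderOf_pos_iff.mp (by omega)
  refine isAddCyclic_of_addOrderOf_eq_card (⟨P, hfin⟩ : AddCommGroup.torsion _) ?_
  rw [← AddSubgroup.addOrderOf_coe, (card_torsion_left_eq_four_iff hA).mpr (Or.inl h)]
  exact hP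

/-- `A = -c²`: the torsion subgroup (of order `4`) is killed by `2`. -/
theorem two_nsmul_torsion_left (hA : A ≠ 0) (h : ∃ c : ℚ, (A : ℚ) = -c ^ 2)
    {P : (EQQ (shortZ A 0)).Point} (hP : IsOfFinAddOrder P) : 2 • P = 0 := by
  by_cases h0 : P = 0
  · rw [h0, nsmul_zero]
  rw [two_nsmul, add_self_eq_zero_short h0]
  rcases (isOfFinAddOrder_left_iff hA h0).mp hP with hy | hx
  · exact hy
  · exfalso
    obtain ⟨c, hc⟩ := h
    have hA' : (A : ℚ) ≠ 0 := by exact_mod_cast hA
    rw [hc] at hx
    have hc0 : c = 0 := by nlinarith [sq_nonneg (xc P), sq_nonneg c]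
    apply hA'
    rw [hc, hc0]; ring

end Fermat.Agent.Cor.LN
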