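import Fermat.Agent.Corollaries.LN.Short
import Mathlib.GroupTheory.Perm.Cycle.Type

/-!
# The torsion points of `y² = x³ + B`

`B ∈ ℤ`, `B ≠ 0`. A rational point `(x, y)` has order `2` iff `y = 0`; order `3` iff `x = 0` or
`x³ = -4 B`; order `6` iff `x³ = 8 B`; all others have infinite order. The order of the torsion
subgroup divides `6`; it is even iff `B` is a cube, and divisible by `3` iff `B = c²` or
`B = -432 c⁶`.
-/

set_option autoImplicit false

open WeierstrassCurve WeierstrassCurve.Affine
open Fermat.Agent.ECRed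

namespace Fermat.Agent.Cor.LN

variable {B : ℤ}

lemma Δ_right_ne_zero (hB : B ≠ 0) : (shortZ 0 B).Δ ≠ 0 := by
  rw [Δ_right]
  exact mul_ne_zero (by norm_num) (pow_ne_zero 2 hB)

lemma eq_right {P : (EQQ (shortZ 0 B)).Point} (h : P ≠ 0) : yc P ^ 2 = xc P ^ 3 + B := by
  have := eq_short h
  push_cast at this
  linear_combination this

lemma xc_double_right {P : (EQQ (shortZ 0 B)).Point} (h : P + P ≠ 0) :
    xc (P + P) * (4 * yc P ^ 2) = xc P * (xc P ^ 3 - 8 * B) := by
  have := xc_double_short h
  push_cast at this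
  linear_combination this

/-- **The points of order `2`** of `y² = x³ + B`: `y = 0`. -/
theorem addOrderOf_eq_two_right {P : (EQQ (shortZ 0 B)).Point} (h0 : P ≠ 0) :
    addOrderOf P = 2 ↔ yc P = 0 := by
  rw [← add_self_eq_zero_short h0, ← two_nsmul]
  constructor
  · intro h
    rw [← h]
    exact addOrderOf_nsmul_eq_zero P
  · intro h
    exact addOrderOf_eq_prime h h0

/-- **The points of order `3`** of `y² = x³ + B`: `x = 0` or `x³ = -4 B`. -/
theorem addOrderOf_eq_three_right (hB : B ≠ 0) {P : (EQQ (shortZ 0 B)).Point} (h0 : P ≠ 0) :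
    addOrderOf P = 3 ↔ xc P = 0 ∨ xc P ^ 3 = -4 * B := by
  have hB' : (B : ℚ) ≠ 0 := by exact_mod_cast hB
  have key : ∀ h2 : P + P ≠ 0, addOrderOf P = 3 ↔ xc P = 0 ∨ xc P ^ 3 = -4 * B := by
    intro h2
    have hy : yc P ≠ 0 := fun h => h2 ((add_self_eq_zero_short h0).mpr h)
    have h3 : addOrderOf P = 3 ↔ 3 • P = 0 := by
      constructor
      · intro h
        rw [← h]
        exact addOrderOf_nsmul_eq_zero P
      · intro h
        exact addOrderOf_eq_prime h h0
    rw [h3, three_nsmul_eq_zero_iff h0 h2]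
    have hd := xc_double_right h2
    have heq := eq_right h0
    have hy2 : 4 * yc P ^ 2 ≠ 0 := mul_ne_zero (by norm_num) (pow_ne_zero 2 hy)
    have h4 : xc (P + P) = xc P ↔ xc P * (xc P ^ 3 + 4 * B) = 0 := by
      constructor
      · intro h
        rw [h, heq] at hd
        linear_combination hd / 3
      · intro h
        apply mul_right_cancel₀ hy2
        rw [hd, heq]
        linear_combination (-3 : ℚ) * h
    rw [h4, mul_eq_zero]
    refine or_congr Iff.rfl ?_
    constructor <;> intro h <;> linear_combination h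
  by_cases h2 : P + P = 0
  · have hy : yc P = 0 := (add_self_eq_zero_short h0).mp h2
    have heq := eq_right h0
    rw [hy] at heq
    constructor
    · intro h
      have h5 : addOrderOf P = 2 := (addOrderOf_eq_two_right h0).mpr hy
      omega
    · rintro (h | h)
      · exfalso
        rw [h] at heq
        apply hB'
        linear_combination -heq
      · exfalso
        rw [h] at heq
        apply hB'
        linear_combination heq / 3
  · exact key h2

lemma four_not_cube {r : ℚ} (h : r ^ 3 = 4) : False := by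
  have h1 : ∃ a : ℤ, r = a := by
    have := exists_int_of_cubic (A := 0) (B := -4) (x := r) (by push_cast; linear_combination h)
    exact this
  obtain ⟨a, rfl⟩ := h1
  have h2 : a ^ 3 = 4 := by exact_mod_cast h
  have h3 : a < 2 := by
    by_contra hcon
    rw [not_lt] at hcon
    nlinarith [mul_nonneg (sub_nonneg.mpr hcon) (sq_nonneg (a + 1))]
  have h4 : 0 < a := by
    by_contra hcon
    rw [not_lt] at hcon
    nlinarith [sq_nonneg a]
  have h5 : a = 1 := by omega
  rw [h5] at h2
  norm_num at h2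

/-- **The points of order `6`** of `y² = x³ + B`: `x³ = 8 B`. -/
theorem addOrderOf_eq_six_right (hB : B ≠ 0) {P : (EQQ (shortZ 0 B)).Point} (h0 : P ≠ 0) :
    addOrderOf P = 6 ↔ xc P ^ 3 = 8 * B := by
  have hB' : (B : ℚ) ≠ 0 := by exact_mod_cast hB
  constructor
  · intro h
    have h6 : (6 : ℕ) • P = 0 := by rw [← h]; exact addOrderOf_nsmul_eq_zero P
    have h2 : P + P ≠ 0 := by
      intro h5
      have h7 : (2 : ℕ) • P = 0 := by rw [two_nsmul]; exact h5
      have := Nat.le_of_dvd (by norm_num) (addOrderOf_dvd_iff_nsmul_eq_zero.mpr h7)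
      omega
    have h3 : (3 : ℕ) • P ≠ 0 := by
      intro h5
      have := Nat.le_of_dvd (by norm_num) (addOrderOf_dvd_iff_nsmul_eq_zero.mpr h5)
      omega
    have hQ : addOrderOf (P + P) = 3 := by
      refine addOrderOf_eq_prime ?_ h2
      rw [← two_nsmul, ← mul_nsmul]
      exact h6
    have hR : addOrderOf ((3 : ℕ) • P) = 2 := by
      refine addOrderOf_eq_prime ?_ h3
      rw [← mul_nsmul]
      exact h6
    have hR' := (addOrderOf_eq_two_right h3).mp hR
    have hR2 := eq_right h3
    rw [hR'] at hR2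
    have hx : xc P ≠ 0 := by
      intro hx
      have := (addOrderOf_eq_three_right hB h0).mpr (Or.inl hx)
      omega
    rcases (addOrderOf_eq_three_right hB h2).mp hQ with h5 | h5
    · have hd := xc_double_right h2
      rw [h5, zero_mul] at hd
      have := (mul_eq_zero.mp hd.symm).resolve_left hx
      linarith
    · exfalso
      have hr : xc ((3 : ℕ) • P) ≠ 0 := by
        intro hr
        rw [hr] at hR2
        apply hB'
        linear_combination -hR2
      refine four_not_cube (r := xc (P + P) / xc ((3 : ℕ) • P)) ?_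
      rw [div_pow, h5]
      have : xc ((3 : ℕ) • P) ^ 3 = -B := by linear_combination -hR2
      rw [this]
      field_simp
  · intro h
    have heq := eq_right h0
    rw [h] at heq
    have hy : yc P ≠ 0 := by
      intro hy
      rw [hy] at heq
      apply hB'
      linear_combination -heq / 9
    have h2 : P + P ≠ 0 := fun h5 => hy ((add_self_eq_zero_short h0).mp h5)
    have hd := xc_double_right h2
    rw [h, sub_self, mul_zero] at hd
    have hx2 : xc (P + P) = 0 := by
      rcases mul_eq_zero.mp hd with h5 | h5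
      · exact h5
      · exact absurd h5 (mul_ne_zero (by norm_num) (pow_ne_zero 2 hy))
    have hQ : addOrderOf (P + P) = 3 := (addOrderOf_eq_three_right hB h2).mpr (Or.inl hx2)
    have h6 : (6 : ℕ) • P = 0 := by
      have : (3 : ℕ) • (P + P) = 0 := by rw [← hQ]; exact addOrderOf_nsmul_eq_zero _
      rw [← two_nsmul, ← mul_nsmul] at this
      exact this
    have hdvd : addOrderOf P ∣ 6 := addOrderOf_dvd_iff_nsmul_eq_zero.mpr h6
    have hle := Nat.le_of_dvd (by norm_num) hdvd
    have n1 : addOrderOf P ≠ 1 := fun h5 => h0 (AddMonoid.addOrderOf_eq_one_iff.mp h5)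
    have n2 : addOrderOf P ≠ 2 := fun h5 => hy ((addOrderOf_eq_two_right h0).mp h5)
    have n3 : addOrderOf P ≠ 3 := by
      intro h5
      rcases (addOrderOf_eq_three_right hB h0).mp h5 with h7 | h7
      · rw [h7] at h
        apply hB'
        linear_combination -h / 8
      · rw [h7] at h
        apply hB'
        linear_combination -h / 12
    interval_cases hc : addOrderOf P <;> omega

/-- **The torsion points of `y² = x³ + B`.** -/
theorem isOfFinAddOrder_right_iff (hB : B ≠ 0) {P : (EQQ (shortZ 0 B)).Point} (h0 : P ≠ 0) :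
    IsOfFinAddOrder P ↔ yc P = 0 ∨ xc P = 0 ∨ xc P ^ 3 = -4 * B ∨ xc P ^ 3 = 8 * B := by
  constructor
  · intro h
    have hdvd := (addOrderOf_dvd_card_torsion h).trans (card_torsion_dvd_six hB)
    have hle := Nat.le_of_dvd (by norm_num) hdvd
    have n1 : addOrderOf P ≠ 1 := fun h5 => h0 (AddMonoid.addOrderOf_eq_one_iff.mp h5)
    have hpos := h.addOrderOf_pos
    have h6 : addOrderOf P = 2 ∨ addOrderOf P = 3 ∨ addOrderOf P = 6 := by
      interval_cases hc : addOrderOf P <;> omega
    rcases h6 with h6 | h6 | h6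
    · exact Or.inl ((addOrderOf_eq_two_right h0).mp h6)
    · rcases (addOrderOf_eq_three_right hB h0).mp h6 with h7 | h7
      · exact Or.inr (Or.inl h7)
      · exact Or.inr (Or.inr (Or.inl h7))
    · exact Or.inr (Or.inr (Or.inr ((addOrderOf_eq_six_right hB h0).mp h6)))
  · rintro (h | h | h | h)
    · exact addOrderOf_pos_iff.mp (by rw [(addOrderOf_eq_two_right h0).mpr h]; norm_num)
    · exact addOrderOf_pos_iff.mp
        (by rw [(addOrderOf_eq_three_right hB h0).mpr (Or.inl h)]; norm_num)
    · exact addOrderOf_pos_iff.mp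
        (by rw [(addOrderOf_eq_three_right hB h0).mpr (Or.inr h)]; norm_num)
    · exact addOrderOf_pos_iff.mp (by rw [(addOrderOf_eq_six_right hB h0).mpr h]; norm_num)

lemma ne_zero_of_addOrderOf {G : Type*} [AddMonoid G] {P : G} {n : ℕ} (h : addOrderOf P = n)
    (hn : n ≠ 1) : P ≠ 0 := by
  rintro rfl
  rw [addOrderOf_zero] at h
  exact hn h.symm

/-- There is a point of order `2` iff `B` is a cube. -/
theorem exists_addOrderOf_eq_two_iff (hB : B ≠ 0) :
    (∃ P : (EQQ (shortZ 0 B)).Point, addOrderOf P = 2) ↔ ∃ c : ℚ, (B : ℚ) = c ^ 3 := by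
  constructor
  · rintro ⟨P, hP⟩
    have h0 := ne_zero_of_addOrderOf hP (by norm_num)
    have hy := (addOrderOf_eq_two_right h0).mp hP
    have heq := eq_right h0
    rw [hy] at heq
    exact ⟨-xc P, by linear_combination -heq⟩
  · rintro ⟨c, hc⟩
    obtain ⟨P, h0, hx, hy⟩ := exists_pt (A := 0) (B := B) (Δ_right_ne_zero hB)
      (x := -c) (y := 0) (by rw [hc]; push_cast; ring)
    exact ⟨P, (addOrderOf_eq_two_right h0).mpr hy⟩

/-- There is a point of order `3` iff `B = c²` or `B = -432 c⁶`. -/
theorem exists_addOrderOf_eq_three_iff (hB : B ≠ 0) :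
    (∃ P : (EQQ (shortZ 0 B)).Point, addOrderOf P = 3) ↔
      (∃ c : ℚ, (B : ℚ) = c ^ 2) ∨ ∃ c : ℚ, (B : ℚ) = -432 * c ^ 6 := by
  have hB' : (B : ℚ) ≠ 0 := by exact_mod_cast hB
  constructor
  · rintro ⟨P, hP⟩
    have h0 := ne_zero_of_addOrderOf hP (by norm_num)
    have heq := eq_right h0
    rcases (addOrderOf_eq_three_right hB h0).mp hP with h | h
    · left
      rw [h] at heq
      exact ⟨yc P, by linear_combination -heq⟩
    · right
      have hx : xc P ≠ 0 := by
        intro hx
        rw [hx] at h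
        apply hB'
        linear_combination h / 4
      have hy : yc P ^ 2 = -3 * B := by rw [heq, h]; ring
      refine ⟨yc P / (3 * xc P), ?_⟩
      have h5 : yc P ^ 6 = (-3 * B) ^ 3 := by rw [← hy]; ring
      have h6 : (3 * xc P) ^ 6 = 729 * (-4 * B) ^ 2 := by rw [← h]; ring
      rw [div_pow, h5, h6]
      field_simp
      ring
  · rintro (⟨c, hc⟩ | ⟨c, hc⟩)
    · obtain ⟨P, h0, hx, hy⟩ := exists_pt (A := 0) (B := B) (Δ_right_ne_zero hB)
        (x := 0) (y := c) (by rw [hc]; push_cast; ring)
      exact ⟨P, (addOrderOf_eq_three_right hB h0).mpr (Or.inl hx)⟩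
    · obtain ⟨P, h0, hx, hy⟩ := exists_pt (A := 0) (B := B) (Δ_right_ne_zero hB)
        (x := 12 * c ^ 2) (y := 36 * c ^ 3) (by rw [hc]; push_cast; ring)
      exact ⟨P, (addOrderOf_eq_three_right hB h0).mpr (Or.inr (by rw [hx, hc]; ring))⟩

lemma dvd_card_torsion_iff {W : WeierstrassCurve ℤ} (hΔ : W.Δ ≠ 0) {p : ℕ} (hp : p.Prime) :
    p ∣ Nat.card (AddCommGroup.torsion (EQQ W).Point) ↔
      ∃ P : (EQQ W).Point, addOrderOf P = p := by
  have := finite_torsion hΔ
  have : Fact p.Prime := ⟨hp⟩
  constructor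
  · intro h
    obtain ⟨P, hP⟩ := exists_prime_addOrderOf_dvd_card' p h
    exact ⟨P.1, by rw [AddSubgroup.addOrderOf_coe]; exact hP⟩
  · rintro ⟨P, hP⟩
    have h1 := addOrderOf_dvd_card_torsion (P := P)
      (addOrderOf_pos_iff.mp (by rw [hP]; exact hp.pos))
    rwa [hP] at h1

/-- **The torsion subgroup of `y² = x³ + B`** has even order iff `B` is a cube. -/
theorem two_dvd_card_torsion_right_iff (hB : B ≠ 0) :
    2 ∣ Nat.card (AddCommGroup.torsion (EQQ (shortZ 0 B)).Point) ↔
      ∃ c : ℚ, (B : ℚ) = c ^ 3 := by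
  rw [dvd_card_torsion_iff (Δ_right_ne_zero hB) Nat.prime_two, exists_addOrderOf_eq_two_iff hB]

/-- **The torsion subgroup of `y² = x³ + B`** has order divisible by `3` iff `B = c²` or
`B = -432 c⁶`. -/
theorem three_dvd_card_torsion_right_iff (hB : B ≠ 0) :
    3 ∣ Nat.card (AddCommGroup.torsion (EQQ (shortZ 0 B)).Point) ↔
      (∃ c : ℚ, (B : ℚ) = c ^ 2) ∨ ∃ c : ℚ, (B : ℚ) = -432 * c ^ 6 := by
  rw [dvd_card_torsion_iff (Δ_right_ne_zero hB) Nat.prime_three,
    exists_addOrderOf_eq_three_iff hB]

end Fermat.Agent.Cor.LN
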